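import Fermat.Agent.S55.Cap.AssemblyH303
import Fermat.Agent.S55.GAD.Closed

/-!
# S55 / layer K, input A8 (CAP): CLOSED FORM   (sub-architect helper303)

`PT.CapSpec p S` (input A8 of route C′, consumed by `PT.s55_of_four`, `PT.theoremD_of_four` and by
S56 BASE-BIG `H2FormulaSpec`) from the ONE open leaf of layer G, the finite reciprocity dictionary
`GAD.FinRecAllSpec = ∀ odd p, G.Rec.TOW.FinRecSpec p`:

* `capSpec_of_finRec : (∀ p, p.Prime → p ≠ 2 → G.Rec.TOW.FinRecSpec p) → p ≠ 2 → pPrime p ∈ S →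
    PT.CapSpec p S`   (the hypothesis is `GAD.FinRecAllSpec` = `Fin.FinRecAllSpec`, unfolded);
* `globalSpecCap_of_finRec`, `isGoodMu_of_finRec` : the intermediate inputs.

Everything else is consumed from main: the seven leaves of `Cap/Spec.lean` (`Cap/AssemblyH303.lean`)
and the closed leaves of layer G exactly as in `GAD/Closed.lean`.
-/

set_option autoImplicit false

noncomputable section

namespace Fermat.Agent.S55.Cap.H303

open Fermat.Agent.S55.PT Fermat.Agent.S55.Tow Fermat.Agent.S55.Cap ExtCitation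

/-- The concrete tower datum is good above `μ_p`, modulo finite reciprocity. -/
theorem isGoodMu_of_finRec (hFR : ∀ p : ℕ, p.Prime → p ≠ 2 → G.Rec.TOW.FinRecSpec p)
    {p : ℕ} [hp : Fact p.Prime] (hp2 : p ≠ 2) {S : Finset Nat.Primes} (hpS : pPrime p ∈ S) :
    (GAD.datum S p).IsGoodMu p := by
  have hFR' : GAD.FinRecAllSpec := hFR
  have hpS' : (⟨p, hp.out⟩ : Nat.Primes) ∈ S := hpS
  have hCM : GAD.ClassModuleSpec S p :=
    GAD.H897.classModule_of_gd1 S hp.out hp2 hpS' (GAD.gd1_of_finRec hFR' p)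
  exact GAD.H604.isGoodMu_of (GAD.H655.sUnitDict S) (fun {_ _ _} => GAD.H655.divTrTrans S)
    (GAD.H57.capitulation S p hp.out hpS')
    (GAD.H121.existenceSpec_of_classModule S p hp2 hpS' (GAD.pClassModule_of_finRec hFR')) hCM
    (GAD.H897.jInj_of_gd3 S (GAD.gd3_of_finRec hFR' p hp.out hp2))
    (fun {_ _} => GAD.H953.infInj_of hp.out hCM (fun {_ _} => GAD.descSpec S ⟨_, hpS'⟩))

/-- The input of layer G consumed by A8, modulo finite reciprocity. -/
theorem globalSpecCap_of_finRec (hFR : ∀ p : ℕ, p.Prime → p ≠ 2 → G.Rec.TOW.FinRecSpec p)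
    {p : ℕ} [Fact p.Prime] (hp2 : p ≠ 2) {S : Finset Nat.Primes} (hpS : pPrime p ∈ S) :
    GlobalSpecCap p S :=
  H713.globalSpecCap_of_isGoodMu ⟨_, hpS⟩ (isGoodMu_of_finRec hFR hp2 hpS)

/-- **A8 (CAP), closed modulo finite reciprocity.** -/
theorem capSpec_of_finRec (hFR : ∀ p : ℕ, p.Prime → p ≠ 2 → G.Rec.TOW.FinRecSpec p)
    {p : ℕ} [Fact p.Prime] (hp2 : p ≠ 2) {S : Finset Nat.Primes} (hpS : pPrime p ∈ S) :
    PT.CapSpec p S :=
  capSpec_of_isGoodMu hpS (isGoodMu_of_finRec hFR hp2 hpS)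

end Fermat.Agent.S55.Cap.H303

end
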