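import Fermat.Agent.S55.Cap.Spec
import Fermat.Agent.S55.Bridge.Cyclo

/-!
# S55 / layer K, input A8 (CAP), leaf HASMU (helper181)

`hasMu : HasMuSpec p S` — if `U_L = Gal(ℚ̄/F)` acts trivially on `μ = ofChar (cycloChar p)` then
`μ_p ⊂ F`: the cyclotomic character is trivial on `U_L`, so `U_L` fixes a primitive `p`-th root of
unity `ζ`, and `ζ ∈ F` by the Galois correspondence.
-/

set_option autoImplicit false

noncomputable section

namespace Fermat.Agent.S55.Cap.H181

open Fermat.Agent.S55.PT Fermat.Agent.S55.Tow groupCohomology ExtCitation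

/-- If `σ` acts trivially on `ofChar (cycloChar p)` then `cycloChar p σ = 1`. -/
lemma cycloChar_eq_one_of_mu_ρ (p : ℕ) [Fact p.Prime] (s : Tow.GQ) (h : (mu p).ρ s = 1) :
    cycloChar p s = 1 := by
  have h2 : (mu p).ρ s (1 : ZMod p) = (1 : ZMod p) := by
    rw [h]
    rfl
  have h3 : ((cycloChar p s : (ZMod p)ˣ) : ZMod p) * 1 = 1 := h2
  rw [mul_one] at h3
  exact Units.ext h3

/-- **A8-HASMU.** -/
theorem hasMu (p : ℕ) [Fact p.Prime] (S : Finset Nat.Primes) : HasMuSpec p S := by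
  intro L hL
  have hp : p.Prime := Fact.out
  haveI : NeZero p := ⟨hp.ne_zero⟩
  obtain ⟨ζ, hζ⟩ : ∃ ζ : AlgebraicClosure ℚ, IsPrimitiveRoot ζ p :=
    HasEnoughRootsOfUnity.exists_primitiveRoot (AlgebraicClosure ℚ) p
  refine ⟨ζ, ?_, hζ⟩
  haveI := Fermat.Agent.S55.Bridge.isAlgebraic_Qbar
  haveI := Fermat.Agent.S55.Bridge.isGalois_Qbar
  have hmem : ζ ∈ IntermediateField.fixedField L.F.fixingSubgroup := by
    rintro ⟨s, hs⟩
    show s ζ = ζ
    have hχ : cycloChar p s = 1 := cycloChar_eq_one_of_mu_ρ p s (hL s hs)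
    obtain ⟨t, rfl⟩ := hζ.isUnit hp.ne_zero
    refine (Fermat.Agent.S55.Bridge.cycloChar_eq_one_iff p s).1 hχ t ?_
    rw [mem_rootsOfUnity]
    apply Units.ext
    rw [Units.val_pow_eq_pow_val, Units.val_one]
    exact hζ.pow_eq_one
  rwa [InfiniteGalois.fixedField_fixingSubgroup L.F] at hmem

end Fermat.Agent.S55.Cap.H181
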