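import Fermat.Agent.S55.Cap.Spec

/-!
# S55 / layer K, input A8 (CAP): leaf EDIV   (helper595, subtask 564)

`eDivAdapter p S : Cap.EDivAdapterSpec p S`, i.e. `Tow.SUnitsDivSpec S p → Cap.EDivSpec p S`:
the smooth `S`-units `𝔼 = SU S` are `p`-divisible as soon as the `S`-units are `p`-divisible in the
tower (GD9, proved in `Bridge/SUnitsDiv.lean` and `H654/GD9.lean`).
-/

set_option autoImplicit false

noncomputable section

namespace Fermat.Agent.S55.Cap.H595

open Fermat.Agent.S55.PT Fermat.Agent.S55.Tow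

/-- leaf **EDIV**, exact Spec type. -/
theorem eDivAdapter (p : ℕ) [Fact p.Prime] (S : Finset Nat.Primes) : EDivAdapterSpec p S := by
  intro h x
  obtain ⟨L, hL⟩ := SU.exists_level S x
  obtain ⟨L', hLL', e', he', hpe⟩ := h.1 L (L.unitsMk (SU.val S x) hL)
    ((isSUq_iff S L _).2 (SU.isSUq S x))
  refine ⟨SU.mk S (L'.unitsCoe e') ((isSUq_iff S L' e').1 he')
    ⟨L', fun g hg => L'.unitsCoe_fixed e' g hg⟩, ?_⟩
  apply SU.ext
  have h1 := congrArg L'.unitsCoe hpe
  rw [map_nsmul] at h1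
  rw [map_nsmul]
  exact h1

/-- `𝔼` is `p`-divisible for `p ∈ S` (unconditional form, via `Bridge.sUnitsDivSpec`-type input). -/
theorem eDiv_of (p : ℕ) [Fact p.Prime] (S : Finset Nat.Primes) (h : SUnitsDivSpec S p) :
    EDivSpec p S := eDivAdapter p S h

end Fermat.Agent.S55.Cap.H595

end
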