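import Fermat.Agent.S55.Cap.Spec
import Fermat.Agent.S55.Cap.H123.IndShapiro
import Fermat.Agent.S55.Cap.H123.CoindShapiro
import Fermat.Agent.S55.Cap.H123.H90
import Fermat.Agent.S55.PT.LevelsNormal

/-!
# S55 / A8 (CAP), leaf J1: `j1Adapter : J1AdapterSpec p S`   (helper123)

`H¹(G_S, Ind_U 𝕁) = 0` in cochain form, from Hilbert 90 (`LocalSpec`, clause 2):

* `ind_shapiro₁` (`Cap/H123/IndShapiro.lean`): a cocycle `f : G → Ind_U X` is a coboundary as soon
  as the `U`-cocycle `u ↦ (f u)(1̄)` is;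
* `coind_shapiro₁` (`Cap/H123/CoindShapiro.lean`): a smooth `U`-cocycle with values in the smooth
  coinduction `𝕁_q` is a coboundary, by Hilbert 90 on each double coset `D_q \ G_ℚ / U`;
* `h90_of_localSpec` (`Cap/H123/H90.lean`): Hilbert 90 in cochain form.
-/

set_option autoImplicit false
set_option linter.unusedSectionVars false
set_option linter.unusedVariables false
set_option linter.style.haveILetI false

noncomputable section

namespace Fermat.Agent.S55.Cap.H123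

open Fermat.Agent.S55.PT Fermat.Agent.S55.Tow Fermat.Agent.S55.Cap

/-- the action of the local Galois group on `ℚ̄_qˣ` -/
@[reducible] def locDMA (q : Nat.Primes) : DistribMulAction (GQp q) (unitsQpbar q).V where
  smul d a := (unitsQpbar q).ρ d a
  one_smul a := by
    show (unitsQpbar q).ρ 1 a = a
    rw [map_one, Module.End.one_apply]
  mul_smul g h a := by
    show (unitsQpbar q).ρ (g * h) a = (unitsQpbar q).ρ g ((unitsQpbar q).ρ h a)
    rw [map_mul, Module.End.mul_apply]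
  smul_zero g := map_zero ((unitsQpbar q).ρ g)
  smul_add g a b := map_add ((unitsQpbar q).ρ g) a b

variable (p : ℕ) [Fact p.Prime] (S : Finset Nat.Primes)

/-- normal levels are cofinal, in `Level` form -/
lemma exists_level_U_le (U : Subgroup Tow.GQ) (hU : U ∈ (globalLevels S).levels) :
    ∃ L : Level S, L.U ≤ U := by
  obtain ⟨V, ⟨F, hF, rfl⟩, hle, hn⟩ := globalLevels_normal_cofinal724 S U hU
  exact ⟨⟨F, hF, hn⟩, hle⟩

/-- the component at `q` of the `U`-cocycle `u ↦ (f u)(1̄)` is a coboundary -/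
lemma j1_component (hL : LocalSpec p) (L₁ L'' : Level S) (h1 : L₁ ≤ L'')
    (f : Tow.GQ → IndM L₁.U (JJS S))
    (hinv : ∀ g s : Tow.GQ, s ∈ L''.U → f (g * s) = f g)
    (hcoc : ∀ g h, f (g * h) = f g + g • f h) (q : ↥S) :
    ∃ xq : JJ S q.1, ∀ u ∈ L₁.U,
      JJS.proj S q (IndM.toF L₁.U (f u) (QuotientGroup.mk 1)) = u • xq - xq := by
  letI : DistribMulAction (GQp q.1) (unitsQpbar q.1).V := locDMA q.1
  have he : ∀ u ∈ L₁.U, u⁻¹ • (QuotientGroup.mk 1 : Tow.GQ ⧸ L₁.U) = QuotientGroup.mk 1 := by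
    intro u hu
    show (QuotientGroup.mk (u⁻¹ * 1) : Tow.GQ ⧸ L₁.U) = QuotientGroup.mk 1
    rw [QuotientGroup.eq]
    have : (u⁻¹ * 1)⁻¹ * 1 = u := by group
    rw [this]
    exact hu
  obtain ⟨x, hx1, hx2, hx3⟩ := coind_shapiro₁ (locQ q.1) L₁.U L''.U (Level.U_anti h1)
    (fun u γ => JJ.ev S q.1 γ (JJS.proj S q (IndM.toF L₁.U (f u) (QuotientGroup.mk 1))))
    (fun u hu d γ => JJ.ev_mul_left S q.1 _ d γ)
    (fun u hu u' hu' γ => by
      show JJ.ev S q.1 γ (JJS.proj S q (IndM.toF L₁.U (f (u * u')) (QuotientGroup.mk 1)))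
        = JJ.ev S q.1 γ (JJS.proj S q (IndM.toF L₁.U (f u) (QuotientGroup.mk 1)))
          + JJ.ev S q.1 (γ * u) (JJS.proj S q (IndM.toF L₁.U (f u') (QuotientGroup.mk 1)))
      rw [hcoc u u', toF_add_apply, toF_smul_apply, he u hu, map_add, map_add, JJS.proj_smul,
        JJ.ev_smul])
    (fun u hu w hw γ => by
      show JJ.ev S q.1 γ (JJS.proj S q (IndM.toF L₁.U (f (u * w)) (QuotientGroup.mk 1)))
        = JJ.ev S q.1 γ (JJS.proj S q (IndM.toF L₁.U (f u) (QuotientGroup.mk 1)))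
      rw [hinv u w hw])
    (fun θ hθ1 hθ2 => h90_of_localSpec p hL L₁ L'' h1 q.1 θ hθ1 hθ2)
  refine ⟨JJ.mk S q.1 x hx1 ⟨L'', fun u hu g => hx2 u hu g⟩, fun u hu => ?_⟩
  apply JJ.ext
  intro γ
  rw [map_sub, JJ.ev_smul, JJ.ev_mk, JJ.ev_mk]
  exact hx3 u hu γ

/-- **leaf J1.** -/
theorem j1Adapter : J1AdapterSpec p S := by
  intro hL L₁ f hLC hcoc
  obtain ⟨Ua, hUa, hinv⟩ := hLC
  obtain ⟨La, hLa⟩ := exists_level_U_le S Ua hUa
  have h1 : L₁ ≤ capSup S L₁ La := le_capSup_left S L₁ La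
  have ha : (capSup S L₁ La).U ≤ Ua := (Level.U_anti (le_capSup_right S L₁ La)).trans hLa
  choose x₀ hx₀ using j1_component p S hL L₁ (capSup S L₁ La) h1 f
    (fun g s hs => hinv g s (ha hs)) hcoc
  refine ind_shapiro₁ L₁.U f hcoc (x₀ : JJS S) ?_
  intro u hu
  apply JJS.ext
  intro q
  rw [hx₀ q u hu]
  rfl

end Fermat.Agent.S55.Cap.H123
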