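import Fermat.Agent.S55.Cap.Spec
import Fermat.Agent.S55.Bridge.MuP
import Fermat.Agent.S55.H654.GD10

/-!
# S55 / A8 (CAP), leaf A8-MU (helper415): `MuSpec p S`

`ι₀ : μ_p = F_p(χ_p) → 𝔼`, `a ↦ root of unity of muPLinearEquiv a`: an injective equivariant
additive map onto the `p`-torsion of the smooth `S`-units `𝔼 = SU S`  (for `p ∈ S`).
-/

set_option autoImplicit false

noncomputable section

namespace Fermat.Agent.S55.Cap.H415

open Fermat.Agent.S55.PT Fermat.Agent.S55.Tow Fermat.Agent.S55.Bridge ExtCitation groupCohomology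
open Fermat.Agent.S55.Cap

variable (p : ℕ) [Fact p.Prime] (S : Finset Nat.Primes)

/-- Extensionality for `ℚ̄ˣ` written additively. -/
lemma unitsQbar_ext {x y : unitsQbar.V}
    (h : ((Additive.toMul x : Qbarˣ) : Qbar) = ((Additive.toMul y : Qbarˣ) : Qbar)) : x = y :=
  Additive.toMul.injective (Units.ext h)

/-- The inclusion `μ_p(ℚ̄) → ℚ̄ˣ`, additively. -/
def muPToUnits : MuP p →+ unitsQbar.V :=
  AddMonoidHom.mk' (fun y => (Additive.ofMul ((y.root : (AlgebraicClosure ℚ)ˣ) : Qbarˣ)))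
    (fun _ _ => rfl)

lemma toMul_muPToUnits (y : MuP p) :
    (Additive.toMul (muPToUnits p y) : Qbarˣ) = (y.root : (AlgebraicClosure ℚ)ˣ) := rfl

lemma muPToUnits_injective : Function.Injective (muPToUnits p) := by
  intro y y' h
  apply MuP.root_injective
  apply Subtype.ext
  have h2 := congrArg (fun z : unitsQbar.V => (Additive.toMul z : Qbarˣ)) h
  exact h2

omit [Fact p.Prime] in
lemma root_pow_eq_one (y : MuP p) :
    (((y.root : (AlgebraicClosure ℚ)ˣ) : AlgebraicClosure ℚ)) ^ p = 1 := by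
  have h := (mem_rootsOfUnity p (y.root : (AlgebraicClosure ℚ)ˣ)).1 y.root.2
  have h2 := congrArg (fun u : (AlgebraicClosure ℚ)ˣ => (u : AlgebraicClosure ℚ)) h
  simpa using h2

/-- Elements of finite order are units of every valuation subring. -/
lemma mem_valuationSubring_of_pow_eq_one (A : ValuationSubring Qbar) {N : ℕ} (hN : N ≠ 0)
    {a : Qbar} (ha : a ^ N = 1) : a ∈ A := by
  rw [← ValuationSubring.valuation_le_one_iff]
  have h : (A.valuation a) ^ N = 1 := by rw [← map_pow, ha, map_one]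
  exact ((pow_eq_one_iff).1 h |>.resolve_right hN).le

lemma isSUq_muPToUnits (y : MuP p) : IsSUq S (muPToUnits p y) := by
  have hp : p ≠ 0 := (Fact.out : p.Prime).ne_zero
  intro ℓ _ A _
  have h1 := root_pow_eq_one p y
  refine ⟨mem_valuationSubring_of_pow_eq_one A hp ?_, mem_valuationSubring_of_pow_eq_one A hp ?_⟩
  · rw [toMul_muPToUnits]
    exact h1
  · rw [toMul_muPToUnits, Units.val_inv_eq_inv_val, inv_pow, h1, inv_one]

lemma smooth_muPToUnits (hpS : pPrime p ∈ S) (y : MuP p) :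
    ∃ L : Level S, ∀ g ∈ L.U, unitsQbar.ρ g (muPToUnits p y) = muPToUnits p y := by
  obtain ⟨L₀, hL₀⟩ := Fermat.Agent.S55.H654.exists_level_rootsOfUnity (p := p) S hpS
  refine ⟨L₀, fun g hg => ?_⟩
  apply unitsQbar_ext
  rw [toMul_ρ]
  exact (IntermediateField.mem_fixingSubgroup_iff _ _).1 hg _ (hL₀ _ (root_pow_eq_one p y))

/-- The embedding `μ_p → 𝔼`. -/
def iota0 (hpS : pPrime p ∈ S) : ↥(mu p) →+ SU S :=
  AddMonoidHom.mk'
    (fun a => SU.mk S (muPToUnits p (muPLinearEquiv p a)) (isSUq_muPToUnits p S _)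
      (smooth_muPToUnits p S hpS _))
    (fun a b => by
      apply SU.ext
      rw [map_add, SU.val_mk, map_add (SU.val S), SU.val_mk, SU.val_mk, map_add])

lemma val_iota0 (hpS : pPrime p ∈ S) (a : ↥(mu p)) :
    SU.val S (iota0 p S hpS a) = muPToUnits p (muPLinearEquiv p a) := rfl

/-- **A8-MU.** -/
theorem muSpec (hpS : pPrime p ∈ S) : MuSpec p S := by
  refine ⟨iota0 p S hpS, ?_, ?_, ?_⟩
  · intro a b h
    have h1 := congrArg (SU.val S) h
    rw [val_iota0, val_iota0] at h1
    exact (muPLinearEquiv p).injective (muPToUnits_injective p h1)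
  · intro g a
    apply SU.ext
    rw [val_iota0]
    show muPToUnits p (muPLinearEquiv p ((mu p).ρ g a)) =
      unitsQbar.ρ g (SU.val S (iota0 p S hpS a))
    rw [val_iota0]
    apply unitsQbar_ext
    rw [toMul_ρ, toMul_muPToUnits, toMul_muPToUnits, ← muPRep_apply]
    congr 3
    show muPLinearEquiv p ((((cycloChar p g : (ZMod p)ˣ) : ZMod p)) • a) = _
    rw [muPRep_apply_smul]
    exact map_smul _ _ _
  · intro e he
    have h1 : p • SU.val S e = 0 := by rw [← map_nsmul, he, map_zero]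
    have h2 : (Additive.toMul (SU.val S e) : Qbarˣ) ^ p = 1 := h1
    let y : MuP p := MuP.of p ⟨(Additive.toMul (SU.val S e) : Qbarˣ),
      (mem_rootsOfUnity p _).2 h2⟩
    refine ⟨(muPLinearEquiv p).symm y, ?_⟩
    apply SU.ext
    rw [val_iota0, LinearEquiv.apply_symm_apply]
    rfl

end Fermat.Agent.S55.Cap.H415
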