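import Fermat.Agent.S55.Cap.Main
import Fermat.Agent.S55.Cap.MuH415
import Fermat.Agent.S55.Cap.HasMuH181
import Fermat.Agent.S55.Cap.EDivH595
import Fermat.Agent.S55.Cap.J1H123
import Fermat.Agent.S55.Cap.J2H164.Main
import Fermat.Agent.S55.Cap.C1H239.Main
import Fermat.Agent.S55.Cap.C2H713.GlobalCap
import Fermat.Agent.S55.H654.GD9
import Fermat.Agent.S55.L.H715.LocalSpecClosed

/-!
# S55 / layer K, input A8 (CAP): ASSEMBLY   (sub-architect helper303)

All seven leaves of `Cap/Spec.lean` are on main (MU helper415, HASMU helper181, EDIV helper595,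
J1 helper123, J2 helper164, C1 helper239, C2 helper713); `LocalSpec` (helper715) and
`SUnitsDivSpec` (helper654) are closed.  Hence **A8 is reduced to the input of layer G**:

* `capSpec_of_globalSpecCap : p ∈ S → Cap.GlobalSpecCap p S → PT.CapSpec p S`;
* `capSpec_of_isGoodMu      : p ∈ S → (GAD.datum S p).IsGoodMu p → PT.CapSpec p S`;
* `capSpec_of_gad`          : the same from the 7 leaf specs of `GAD/Spec.lean`.

`PT.CapSpec p S` is the fourth input of `PT.s55_of_four` (route C′).
-/

set_option autoImplicit false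

noncomputable section

namespace Fermat.Agent.S55.Cap.H303

open Fermat.Agent.S55.PT Fermat.Agent.S55.Tow Fermat.Agent.S55.Cap ExtCitation

variable {p : ℕ} [Fact p.Prime] {S : Finset Nat.Primes}

/-- **A8, assembled**: `PT.CapSpec p S` from the input of layer G (a good tower datum with GD11
and GD12). -/
theorem capSpec_of_globalSpecCap (hpS : pPrime p ∈ S) (hG : GlobalSpecCap p S) :
    PT.CapSpec p S := by
  have hp : 0 < p := (Fact.out : p.Prime).pos
  have hLoc : LocalSpec p := L.H715.localSpec p hp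
  have hSU : SUnitsDivSpec S p := H654.sUnitsDivSpec S hpS
  have hG' : ∃ D : TowerDatum S, D.IsGoodMu p ∧ ClTorsion D := by
    obtain ⟨D, h1, h2, -⟩ := hG
    exact ⟨D, h1, h2⟩
  exact capSpec_of_leaves p S hpS (H415.muSpec p S hpS) (H181.hasMu p S) (H595.eDiv_of p S hSU)
    (H123.j1Adapter p S hLoc) (J2H164.j2Adapter p S hLoc) (H239.c1Adapter hG' hSU)
    (H713.c2Adapter p S hG)

/-- **A8, assembled** from the goodness (GD1, GD3–GD8 above `μ_p`) of the concrete tower datum. -/
theorem capSpec_of_isGoodMu (hpS : pPrime p ∈ S) (hD : (GAD.datum S p).IsGoodMu p) :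
    PT.CapSpec p S :=
  capSpec_of_globalSpecCap hpS (H713.globalSpecCap_of_isGoodMu ⟨_, hpS⟩ hD)

/-- **A8, assembled** from the 7 leaf specs of `GAD/Spec.lean`. -/
theorem capSpec_of_gad (hpS : pPrime p ∈ S) (hSU : GAD.SUnitDictSpec S)
    (hTr : GAD.DivTrTransSpec S) (hCap : GAD.CapitulationSpec S p) (hEx : GAD.ExistenceSpec S p)
    (hCM : GAD.ClassModuleSpec S p) (hJ : GAD.JInjSpec S p) (hInf : GAD.InfInjSpec S p) :
    PT.CapSpec p S :=
  capSpec_of_globalSpecCap hpS (H713.globalSpecCap_of ⟨_, hpS⟩ hSU hTr hCap hEx hCM hJ hInf)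

end Fermat.Agent.S55.Cap.H303

end
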