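import Fermat.Agent.S55.Cap.C1H424.Lift

/-!
# S55 / A8 (CAP), leaf **A8-C1**: `c1Adapter : C1AdapterSpec p S`   (helper424)

`H¹(G_S(K_U), 𝕁/𝔼)` has no `p`-part, in cochain form, from a tower datum with GD1, GD4, GD5, GD7
and GD11 (`ClTorsion`).  Blueprint: `coord/S55-K-A8.md` §4.3.

Proof.  `b : Γ → Ind_U 𝕁` level-constant with `d b ∈ Ind_U 𝔼`.
1. finite level `L ⊇ μ_p`: `b = ofJtot ∘ β`, `β : Γ → Ind_U J(L)` (`exists_level_lift_all`);
2. `c := j ∘ β : Γ → Ind_U C(L)` is a 1-cocycle (GD4), constant modulo `U_L`;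
3. Shapiro: `z(t) := c(t)(1̄)` is a 1-cocycle of `Ū = Gal(L/L₁)` in `C(L)`;
4. GD1: `z` is a coboundary on a Sylow `p`-subgroup `P ≤ Ū`; transfer: `[Ū:P] • z = d c₀`;
5. Shapiro back (`indShapiro₁`): `m₀ • c = d c₁`, `c₁ ∈ Ind_U C(L)`;
6. GD11 + GD5 (`exists_lift_C`): `n • tr c₁ = j(q)`, `q ∈ Ind_U J(L')`, `p ∤ n`;
7. `j (n m₀ • tr β(g) − (g q − q)) = 0`, hence it lies in `Ind_U 𝔼` (GD4).
-/

set_option autoImplicit false
set_option linter.unusedVariables false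
set_option linter.unusedSectionVars false
set_option linter.style.haveILetI false

noncomputable section

namespace Fermat.Agent.S55.Cap.H424

open Fermat.Agent.S55.PT Fermat.Agent.S55.Tow Fermat.Agent.S55.E1.Lim Fermat.Agent.S55.Cap
open CategoryTheory groupCohomology

attribute [local instance] quotDMA subDMA

variable {S : Finset Nat.Primes} {D : TowerDatum S} (U : Subgroup Tow.GQ)

lemma IndM.nsmul_single' {X : Type} [AddCommGroup X] (n : ℕ) (x : Tow.GQ ⧸ U) (a : X) :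
    n • IndM.single U x a = IndM.single U x (n • a) := by
  show IndM.ofF U (n • Finsupp.single x a) = IndM.ofF U (Finsupp.single x (n • a))
  rw [Finsupp.smul_single]

/-- GD11 + GD5: every element of `Ind_U C(F)` is, up to a prime-to-`p` multiple, in the image of
`Ind_U J(F')` for a higher level `F'`. -/
lemma exists_lift_C {p : ℕ} [hp : Fact p.Prime] (hD : D.IsGoodMu p) (hT : ClTorsion D)
    (L : Level S) (F : IndM U (D.C L).V) :
    ∃ (n : ℕ) (L' : Level S) (h : L ≤ L') (q : IndM U (Jtot L').V), n.Coprime p ∧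
      IndM.map U (jT D L') q = n • IndM.map U (trCA D h) F := by
  induction F using IndM.induction_on with
  | h0 =>
    refine ⟨1, L, le_rfl, 0, Nat.coprime_one_left p, ?_⟩
    rw [map_zero, map_zero, smul_zero]
  | hadd F₁ F₂ h₁ h₂ =>
    obtain ⟨n₁, L₁', k₁, q₁, hn₁, hq₁⟩ := h₁
    obtain ⟨n₂, L₂', k₂, q₂, hn₂, hq₂⟩ := h₂
    have l₁ : L₁' ≤ capSup S L₁' L₂' := le_capSup_left S L₁' L₂'
    have l₂ : L₂' ≤ capSup S L₁' L₂' := le_capSup_right S L₁' L₂'
    refine ⟨n₁ * n₂, capSup S L₁' L₂', k₁.trans l₁,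
      n₂ • IndM.map U (trJA l₁) q₁ + n₁ • IndM.map U (trJA l₂) q₂,
      Nat.Coprime.mul_left hn₁ hn₂, ?_⟩
    rw [map_add, map_nsmul, map_nsmul, ← map_trCA_jT U hD l₁, ← map_trCA_jT U hD l₂, hq₁, hq₂,
      map_nsmul, map_nsmul, map_trCA_trans U hD k₁ l₁, map_trCA_trans U hD k₂ l₂, map_add,
      nsmul_add, ← mul_smul, ← mul_smul, mul_comm n₂ n₁]
  | hsingle x a =>
    obtain ⟨N, hN, hloc⟩ := hT L a
    obtain ⟨k, n, hn, rfl⟩ := Nat.exists_eq_pow_mul_and_not_dvd hN.ne' p hp.out.ne_one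
    rw [mul_smul] at hloc
    obtain ⟨L', h, hloc'⟩ := hD.gd5 L (n • a) k hloc
    obtain ⟨y, hy⟩ := (isLocalSum_iff D L' _).1 hloc'
    refine ⟨n, L', h, IndM.single U x y,
      ((Nat.Prime.coprime_iff_not_dvd hp.out).2 hn).symm, ?_⟩
    rw [IndM.map_single, IndM.map_single, IndM.nsmul_single', jT_apply, hy, trCA_apply,
      map_nsmul]

/-- **A8-C1.** -/
theorem c1Adapter (p : ℕ) [hp : Fact p.Prime] (S : Finset Nat.Primes) : C1AdapterSpec p S := by
  rintro ⟨D, hD, hT⟩ hU L₁ b ⟨W, hW, hbW⟩ hbd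
  -- a normal level inside `W`
  obtain ⟨V, ⟨Fa, hFa, rfl⟩, hVW, hVn⟩ := globalLevels_normal_cofinal724 S W hW
  let La : Level S := ⟨Fa, hFa, hVn⟩
  have hbLa : ∀ g s : Tow.GQ, s ∈ La.U → b (g * s) = b g := fun g s hs => hbW g s (hVW hs)
  -- a level containing `μ_p`
  obtain ⟨Lμ, hμ⟩ := hU.2
  obtain ⟨ζ, hζ⟩ : ∃ ζ : Qbar, IsPrimitiveRoot ζ p := by
    haveI : NeZero ((p : ℕ) : Qbar) := ⟨by exact_mod_cast hp.out.ne_zero⟩
    exact HasEnoughRootsOfUnity.exists_primitiveRoot Qbar p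
  have hLμ : Lμ.HasMu p := ⟨ζ, hμ ζ hζ.pow_eq_one, hζ⟩
  -- the level `L`
  obtain ⟨L, hL₂, hlift⟩ :=
    exists_level_lift_all L₁.U La (capSup S (capSup S L₁ La) Lμ) b hbLa
  have h₁ : L₁ ≤ L := ((le_capSup_left S L₁ La).trans (le_capSup_left S _ Lμ)).trans hL₂
  have ha : La ≤ L := ((le_capSup_right S L₁ La).trans (le_capSup_left S _ Lμ)).trans hL₂
  have hLmu : L.HasMu p := hLμ.mono ((le_capSup_right S _ Lμ).trans hL₂)
  choose β hβ using hlift
  have hinj : Function.Injective (IndM.map L₁.U (ofJtot L)) :=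
    IndM.map_injective _ _ (ofJtot_injective L)
  have hβc : ∀ g s : Tow.GQ, s ∈ L.U → β (g * s) = β g := fun g s hs =>
    hinj (by rw [hβ, hβ, hbLa g s (Level.U_anti ha hs)])
  -- the cocycle `c`
  set c : Tow.GQ → IndM L₁.U (D.C L).V := fun g => IndM.map L₁.U (jT D L) (β g) with hc
  have hcc : ∀ g s : Tow.GQ, s ∈ L.U → c (g * s) = c g := fun g s hs => by
    simp only [hc, hβc g s hs]
  have hcoc : ∀ g h : Tow.GQ, c (g * h) = c g + g • c h := by
    intro g h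
    obtain ⟨e, he⟩ := hbd g h
    have h1 : IndM.map L₁.U (ofJtot L) (g • β h - β (g * h) + β g) =
        IndM.map L₁.U (iEJ S) e := by
      rw [map_add, map_sub, map_ofJtot_smul, hβ, hβ, hβ, he]
    have h2 := map_jT_eq_zero_of_iEJ L₁.U hD L _ e h1.symm
    rw [map_add, map_sub, map_jT_smul] at h2
    have h3 : c (g * h) = g • c h + c g := by
      have h4 : g • c h + c g - c (g * h) = 0 := by
        rw [← h2]
        show g • c h + c g - c (g * h) = g • c h - c (g * h) + c g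
        abel
      exact (sub_eq_zero.1 h4).symm
    rw [h3, add_comm]
  have hcout : ∀ g : Tow.GQ, c (Quotient.out (QuotientGroup.mk g : L.Gal)) = c g := by
    intro g
    have h3 : g⁻¹ * Quotient.out (QuotientGroup.mk g : L.Gal) ∈ L.U :=
      QuotientGroup.eq.1 (QuotientGroup.out_eq' _).symm
    have h4 := hcc g _ h3
    rwa [mul_inv_cancel_left] at h4
  -- the relative Galois group `Ū = Gal(L/L₁)`
  set Ub : Subgroup L.Gal := Level.relGal h₁ with hUb
  have hout : ∀ t : L.Gal, t ∈ Ub → Quotient.out t ∈ L₁.U := by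
    intro t ht
    have h1 : Level.proj h₁ (QuotientGroup.mk (Quotient.out t)) = 1 := by
      rw [QuotientGroup.out_eq']
      exact ht
    exact (QuotientGroup.eq_one_iff _).1 h1
  have hmkU : ∀ u : Tow.GQ, u ∈ L₁.U → (QuotientGroup.mk u : L.Gal) ∈ Ub := fun u hu =>
    (QuotientGroup.eq_one_iff u).2 hu
  -- Shapiro: the cocycle `z` on `Ū`
  set z : ↥Ub → (D.C L).V := fun t =>
    IndM.toF L₁.U (c (Quotient.out (t : L.Gal))) ((1 : Tow.GQ) : Tow.GQ ⧸ L₁.U) with hz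
  have hzc : ∀ s t : ↥Ub, z (s * t) = z s + s • z t := by
    intro s t
    have h1 : c (Quotient.out ((s * t : ↥Ub) : L.Gal)) =
        c (Quotient.out (s : L.Gal) * Quotient.out (t : L.Gal)) := by
      rw [← hcout (Quotient.out (s : L.Gal) * Quotient.out (t : L.Gal))]
      have h5 : (QuotientGroup.mk (Quotient.out (s : L.Gal) * Quotient.out (t : L.Gal)) : L.Gal)
          = ((s * t : ↥Ub) : L.Gal) := by
        rw [QuotientGroup.mk_mul, QuotientGroup.out_eq', QuotientGroup.out_eq']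
        rfl
      rw [h5]
    have h2 : (Quotient.out (s : L.Gal))⁻¹ • ((1 : Tow.GQ) : Tow.GQ ⧸ L₁.U) =
        ((1 : Tow.GQ) : Tow.GQ ⧸ L₁.U) := by
      show (((Quotient.out (s : L.Gal))⁻¹ * 1 : Tow.GQ) : Tow.GQ ⧸ L₁.U) = _
      rw [mul_one]
      exact (QuotientGroup.eq_one_iff _).2 (L₁.U.inv_mem (hout _ s.2))
    show IndM.toF L₁.U (c (Quotient.out ((s * t : ↥Ub) : L.Gal))) _ = _
    rw [h1, hcoc, IndM.toF_add, IndM.toF_smul_apply, h2]
    congr 1
    show (D.C L).ρ (QuotientGroup.mk (Quotient.out (s : L.Gal))) _ = (D.C L).ρ (s : L.Gal) _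
    rw [QuotientGroup.out_eq']
  -- GD1 on a Sylow `p`-subgroup
  obtain ⟨P⟩ : Nonempty (Sylow p ↥Ub) := inferInstance
  set H : Subgroup L.Gal := (P : Subgroup ↥Ub).map Ub.subtype with hH
  have hHp : IsPGroup p H := P.isPGroup'.map Ub.subtype
  have hH1 := (hD.gd1 L hLmu H hHp).1
  have hHU : ∀ s : ↥H, (s : L.Gal) ∈ Ub := fun s => by
    obtain ⟨t, -, ht⟩ := s.2
    rw [← ht]
    exact t.2
  obtain ⟨y, hy⟩ := coboundary_of_isZero (T.resSub (D.C L) H) hH1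
    (fun s => z ⟨(s : L.Gal), hHU s⟩) (fun s t => hzc ⟨(s : L.Gal), hHU s⟩ ⟨(t : L.Gal), hHU t⟩)
  have hyP : ∀ t ∈ (P : Subgroup ↥Ub), z t = t • y - y := fun t ht =>
    hy ⟨(t : L.Gal), Subgroup.mem_map_of_mem Ub.subtype ht⟩
  -- transfer
  obtain ⟨c₀, hc₀⟩ := transfer_coboundary (P : Subgroup ↥Ub) z hzc y hyP
  have hm₀p : ((P : Subgroup ↥Ub).index).Coprime p :=
    ((Nat.Prime.coprime_iff_not_dvd hp.out).2 P.not_dvd_index).symm
  -- Shapiro back
  have hsh : ∀ u ∈ L₁.U, IndM.toF L₁.U ((P : Subgroup ↥Ub).index • c u)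
      ((1 : Tow.GQ) : Tow.GQ ⧸ L₁.U) = u • c₀ - c₀ := by
    intro u hu
    have h1 := hc₀ ⟨QuotientGroup.mk u, hmkU u hu⟩
    have h2 : z ⟨QuotientGroup.mk u, hmkU u hu⟩ =
        IndM.toF L₁.U (c u) ((1 : Tow.GQ) : Tow.GQ ⧸ L₁.U) := by
      show IndM.toF L₁.U (c (Quotient.out (QuotientGroup.mk u : L.Gal))) _ = _
      rw [hcout]
    rw [h2] at h1
    rw [IndM.toF_nsmul, h1]
    rfl
  obtain ⟨c₁, hc₁⟩ := indShapiro₁ L₁.U (fun g => (P : Subgroup ↥Ub).index • c g) (by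
    intro g h
    show (P : Subgroup ↥Ub).index • c (g * h) =
      (P : Subgroup ↥Ub).index • c g + g • ((P : Subgroup ↥Ub).index • c h)
    rw [hcoc, nsmul_add, smul_comm g]) c₀ hsh
  -- lift `c₁`
  obtain ⟨n, L', h', q, hn, hq⟩ := exists_lift_C L₁.U hD hT L c₁
  refine ⟨n * (P : Subgroup ↥Ub).index, IndM.map L₁.U (ofJtot L') q,
    Nat.Coprime.mul_left hn hm₀p, fun g => ?_⟩
  have key : IndM.map L₁.U (jT D L')
      ((n * (P : Subgroup ↥Ub).index) • IndM.map L₁.U (trJA h') (β g) - (g • q - q)) = 0 := by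
    have h1 : (n * (P : Subgroup ↥Ub).index) • IndM.map L₁.U (trCA D h') (c g) =
        n • (g • IndM.map L₁.U (trCA D h') c₁ - IndM.map L₁.U (trCA D h') c₁) := by
      rw [mul_smul, ← map_nsmul, hc₁ g, map_sub, map_trCA_smul]
    rw [map_sub, map_sub, map_nsmul, map_jT_smul, ← map_trCA_jT L₁.U hD h', hq, h1,
      smul_comm g n, nsmul_sub, sub_self]
  obtain ⟨e, he⟩ := exists_iEJ_of_map_jT_eq_zero L₁.U hD L' _ key
  refine ⟨e, ?_⟩
  rw [he, map_sub, map_sub, map_nsmul, map_ofJtot_trJA, hβ, map_ofJtot_smul]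

end Fermat.Agent.S55.Cap.H424
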