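import Fermat.Agent.S55.PT.Levels

/-!
# S55 / layer K, input A8 (CAP): the abstract capitulation chase   (helper303)

Pure algebra.  `G` a group with a level system `L`; two rows of `G`-modules

```
   M  --ι-->  E  --i-->  J            ("level U":  Ind_U μ_p, Ind_U 𝔼, Ind_U 𝕁)
   |lM        |lE        |lJ
   v          v          v
   M' --ι'--> E' --i'--> J'           ("level V")
```

(`𝔼` = `S`-units of the maximal `S`-unramified extension, `𝕁` = `S`-idèles).  Hypotheses: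
`i, i', ι'` injective, `p M = p M' = 0`, `E'[p] ⊆ ι'(M')`, `E'` `p`-divisible, smoothness,

* `h1J` : level-constant `E`-valued 1-cocycles are coboundaries in `J`   (Hilbert 90 + Shapiro);
* `hC1` : `H¹(J/E)` has no `p`-part (class module + capitulation), in cochain form;
* `hC2` : the "norm" `lJ` maps `(J/E)^G` into `p (J'/E')^G` up to a prime-to-`p` factor
          (existence theorem mod `p` + capitulation), in element form.

Conclusion (`chase`): if a 2-cochain `c : G × G → M` becomes the coboundary of a level-constant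
1-cochain in `J`, then `lM ∘ c` is the coboundary of a level-constant 1-cochain in `M'`.

Classical meaning: `cores : Ш²(G_S(K'), μ_p) → Ш²(G_S(K), μ_p)` is zero as soon as
`N_{K'/K} C_S(K') ⊆ p C_S(K)`.
-/

set_option autoImplicit false

namespace Fermat.Agent.S55.Cap

open Fermat.Agent.S55.PT

section LC

variable {G : Type} [Group G] (L : LevelSys G)

lemma isLC₁_of_comp_injective {X Y : Type} {f : G → X} (φ : X → Y)
    (hφ : Function.Injective φ) (h : L.IsLC₁ (fun g => φ (f g))) : L.IsLC₁ f := by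
  obtain ⟨U, hU, hf⟩ := h
  exact ⟨U, hU, fun g s hs => hφ (hf g s hs)⟩

lemma isLC₁_congr {X : Type} {f f' : G → X} (h : L.IsLC₁ f') (hff : ∀ g, f g = f' g) :
    L.IsLC₁ f := by
  obtain ⟨U, hU, hf⟩ := h
  exact ⟨U, hU, fun g s hs => by rw [hff, hff, hf g s hs]⟩

lemma isLC₁_map {X Y : Type} {f : G → X} (φ : X → Y) (h : L.IsLC₁ f) :
    L.IsLC₁ (fun g => φ (f g)) := by
  obtain ⟨U, hU, hf⟩ := h
  exact ⟨U, hU, fun g s hs => by
    show φ (f (g * s)) = φ (f g)
    rw [hf g s hs]⟩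

lemma isLC₁_map₂ {X Y Z : Type} {f : G → X} {f' : G → Y} (φ : X → Y → Z)
    (h : L.IsLC₁ f) (h' : L.IsLC₁ f') : L.IsLC₁ (fun g => φ (f g) (f' g)) := by
  obtain ⟨U, hU, hf⟩ := h
  obtain ⟨V, hV, hf'⟩ := h'
  obtain ⟨W, hW, hle⟩ := L.directed U hU V hV
  exact ⟨W, hW, fun g s hs => by
    show φ (f (g * s)) (f' (g * s)) = φ (f g) (f' g)
    rw [hf g s (hle hs).1, hf' g s (hle hs).2]⟩

lemma isLC₁_d0 {A : Type} [AddCommGroup A] [DistribMulAction G A] (a : A)
    (ha : ∃ U ∈ L.levels, ∀ s ∈ U, s • a = a) : L.IsLC₁ (fun g : G => g • a - a) := by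
  obtain ⟨U, hU, h⟩ := ha
  exact ⟨U, hU, fun g s hs => by
    show (g * s) • a - a = g • a - a
    rw [mul_smul, h s hs]⟩

end LC

section Chase

variable {G : Type} [Group G] (L : LevelSys G)
variable {M E J M' E' J' : Type}
  [AddCommGroup M] [AddCommGroup E] [AddCommGroup J]
  [AddCommGroup M'] [AddCommGroup E'] [AddCommGroup J']
  [DistribMulAction G E] [DistribMulAction G J]
  [DistribMulAction G M'] [DistribMulAction G E'] [DistribMulAction G J']

/-- `d⁰ d⁰ = 0`-type identity: the coboundary of `g ↦ g a - a` vanishes. -/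
lemma d1_d0 {A : Type} [AddCommGroup A] [DistribMulAction G A] (a : A) (g h : G) :
    g • (h • a - a) - ((g * h) • a - a) + (g • a - a) = 0 := by
  rw [smul_sub, mul_smul]
  abel

lemma nsmul_eq_of_mod_eq_one {A : Type} [AddCommGroup A] {p N : ℕ} (h : N % p = 1) (x : A)
    (hx : p • x = 0) : N • x = x := by
  conv_lhs => rw [← Nat.div_add_mod N p, h]
  rw [add_nsmul, mul_nsmul, one_nsmul, hx, nsmul_zero, zero_add]

/-- **The capitulation chase.** -/
theorem chase (p : ℕ) (hp : p.Prime)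
    (ι : M →+ E) (i : E →+ J) (ι' : M' →+ E') (i' : E' →+ J')
    (lM : M →+ M') (lE : E →+ E') (lJ : J →+ J')
    (hi : ∀ (g : G) (e : E), i (g • e) = g • i e)
    (hι' : ∀ (g : G) (m : M'), ι' (g • m) = g • ι' m)
    (hi' : ∀ (g : G) (e : E'), i' (g • e) = g • i' e)
    (hlE : ∀ (g : G) (e : E), lE (g • e) = g • lE e)
    (hlJ : ∀ (g : G) (x : J), lJ (g • x) = g • lJ x)
    (hιl : ∀ m : M, lE (ι m) = ι' (lM m))
    (hil : ∀ e : E, lJ (i e) = i' (lE e))
    (i_inj : Function.Injective i) (i'_inj : Function.Injective i')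
    (ι'_inj : Function.Injective ι')
    (hpM : ∀ m : M, p • m = 0) (hpM' : ∀ m : M', p • m = 0)
    (htors' : ∀ e : E', p • e = 0 → ∃ m : M', ι' m = e)
    (hdiv' : ∀ e : E', ∃ η : E', p • η = e)
    (smJ : ∀ x : J, ∃ U ∈ L.levels, ∀ s ∈ U, s • x = x)
    (smJ' : ∀ x : J', ∃ U ∈ L.levels, ∀ s ∈ U, s • x = x)
    (smE' : ∀ x : E', ∃ U ∈ L.levels, ∀ s ∈ U, s • x = x)
    (h1J : ∀ u : G → E, L.IsLC₁ u → (∀ g h, u (g * h) = u g + g • u h) →
      ∃ q : J, ∀ g, i (u g) = g • q - q)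
    (hC1 : ∀ b : G → J, L.IsLC₁ b → (∀ g h, ∃ e : E, i e = g • b h - b (g * h) + b g) →
      ∃ (m : ℕ) (q₁ : J), m.Coprime p ∧ ∀ g, ∃ e : E, i e = m • b g - (g • q₁ - q₁))
    (hC2 : ∀ q : J, (∀ g : G, ∃ e : E, i e = g • q - q) →
      ∃ (n : ℕ) (q₂ : J'), n.Coprime p ∧ (∀ g : G, ∃ e : E', i' e = g • q₂ - q₂) ∧
        ∃ ε : E', i' ε = n • lJ q - p • q₂)
    (c : G × G → M) (b : G → J) (hb : L.IsLC₁ b)
    (hcb : ∀ g h, i (ι (c (g, h))) = g • b h - b (g * h) + b g) :
    ∃ β : G → M', L.IsLC₁ β ∧ ∀ g h, lM (c (g, h)) = g • β h - β (g * h) + β g := by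
  classical
  have hpιc : ∀ g h, p • ι (c (g, h)) = 0 := fun g h => by rw [← map_nsmul, hpM, map_zero]
  -- Step 2: lift `m • b` to `E` modulo a coboundary
  obtain ⟨m, q₁, hm, hq₁⟩ := hC1 b hb (fun g h => ⟨ι (c (g, h)), hcb g h⟩)
  choose bE hbE using hq₁
  have bE_LC : L.IsLC₁ bE := by
    apply isLC₁_of_comp_injective L i i_inj
    refine isLC₁_congr L (f' := fun g => m • b g - (g • q₁ - q₁)) ?_ hbE
    exact isLC₁_map₂ L (fun x y => m • x - y) hb (isLC₁_d0 L q₁ (smJ q₁))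
  have dbE : ∀ g h, g • bE h - bE (g * h) + bE g = m • ι (c (g, h)) := by
    intro g h
    apply i_inj
    rw [map_add, map_sub, hi, hbE, hbE, hbE, map_nsmul, hcb]
    simp only [smul_sub, smul_add, mul_smul, smul_comm g m]
    abel
  -- Step 3: divide by `m` modulo `p`
  obtain ⟨m', -, hm'⟩ := Nat.exists_mul_mod_eq_one_of_coprime hm hp.one_lt
  have db' : ∀ g h, g • (m' • bE h) - m' • bE (g * h) + m' • bE g = ι (c (g, h)) := by
    intro g h
    have h1 : g • (m' • bE h) - m' • bE (g * h) + m' • bE g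
        = m' • (g • bE h - bE (g * h) + bE g) := by
      simp only [smul_sub, smul_add, smul_comm g m']
    rw [h1, dbE, ← mul_nsmul, nsmul_eq_of_mod_eq_one hm' _ (hpιc g h)]
  -- Step 4: `u = p • b'` is a cocycle in `E`, hence a coboundary in `J`
  have hu_coc : ∀ g h, p • (m' • bE (g * h)) = p • (m' • bE g) + g • (p • (m' • bE h)) := by
    intro g h
    have h1 : p • (g • (m' • bE h) - m' • bE (g * h) + m' • bE g) = 0 := by
      rw [db', hpιc]
    have h2 : g • (p • (m' • bE h)) = p • (g • (m' • bE h)) := smul_comm g p _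
    rw [h2]
    rw [smul_add, smul_sub, sub_add_eq_add_sub, sub_eq_zero] at h1
    rw [← h1]
    abel
  have hu_LC : L.IsLC₁ (fun g => p • (m' • bE g)) :=
    isLC₁_map L (fun x => p • (m' • x)) bE_LC
  obtain ⟨q, hq⟩ := h1J (fun g => p • (m' • bE g)) hu_LC hu_coc
  -- Step 5: the norm step
  obtain ⟨n, q₂, hn, hq₂, ε, hε⟩ := hC2 q (fun g => ⟨p • (m' • bE g), hq g⟩)
  choose w hw using hq₂
  have w_LC : L.IsLC₁ w := by
    apply isLC₁_of_comp_injective L i' i'_inj
    exact isLC₁_congr L (isLC₁_d0 L q₂ (smJ' q₂)) hw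
  have dw : ∀ g h, g • w h - w (g * h) + w g = 0 := by
    intro g h
    apply i'_inj
    rw [map_add, map_sub, hi', hw, hw, hw, map_zero]
    exact d1_d0 q₂ g h
  obtain ⟨η, hη⟩ := hdiv' ε
  have key : ∀ g, p • (n • lE (m' • bE g) - w g - (g • η - η)) = 0 := by
    intro g
    apply i'_inj
    have h1 : p • i' (lE (m' • bE g)) = g • lJ q - lJ q := by
      rw [← hil, ← map_nsmul, ← map_nsmul, hq g, map_sub, hlJ]
    have h3 : p • i' η = n • lJ q - p • q₂ := by rw [← map_nsmul, hη, hε]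
    rw [map_zero, map_nsmul, map_sub, map_sub, map_sub, map_nsmul, hi', hw]
    have h4 : p • (n • i' (lE (m' • bE g)) - (g • q₂ - q₂) - (g • i' η - i' η))
        = n • (p • i' (lE (m' • bE g))) - (g • (p • q₂) - p • q₂)
          - (g • (p • i' η) - p • i' η) := by
      simp only [smul_sub, smul_comm g p, smul_comm p n]
    rw [h4, h1, h3]
    simp only [smul_sub, smul_comm g n, smul_comm g p]
    abel
  choose β₀ hβ₀ using fun g => htors' _ (key g)
  have β₀_LC : L.IsLC₁ β₀ := by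
    apply isLC₁_of_comp_injective L ι' ι'_inj
    refine isLC₁_congr L (f' := fun g => (n • lE (m' • bE g) - w g) - (g • η - η)) ?_ hβ₀
    refine isLC₁_map₂ L (fun x y => x - y) ?_ (isLC₁_d0 L η (smE' η))
    exact isLC₁_map₂ L (fun x y => n • lE (m' • x) - y) bE_LC w_LC
  have dβ₀ : ∀ g h, g • β₀ h - β₀ (g * h) + β₀ g = n • lM (c (g, h)) := by
    intro g h
    apply ι'_inj
    have hR : ι' (n • lM (c (g, h)))
        = n • (g • lE (m' • bE h) - lE (m' • bE (g * h)) + lE (m' • bE g)) := by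
      rw [map_nsmul, ← hιl, ← db' g h, map_add, map_sub, hlE]
    rw [map_add, map_sub, hι', hβ₀, hβ₀, hβ₀, hR]
    have hw0 := dw g h
    have hη0 := d1_d0 η g h
    have e1 : g • (n • lE (m' • bE h) - w h - (h • η - η))
          - (n • lE (m' • bE (g * h)) - w (g * h) - ((g * h) • η - η))
          + (n • lE (m' • bE g) - w g - (g • η - η))
        = n • (g • lE (m' • bE h) - lE (m' • bE (g * h)) + lE (m' • bE g))
          - (g • w h - w (g * h) + w g)
          - (g • (h • η - η) - ((g * h) • η - η) + (g • η - η)) := by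
      simp only [smul_sub, smul_add, smul_comm g n]
      abel
    rw [e1, hw0, hη0, sub_zero, sub_zero]
  obtain ⟨n', -, hn'⟩ := Nat.exists_mul_mod_eq_one_of_coprime hn hp.one_lt
  refine ⟨fun g => n' • β₀ g, isLC₁_map L (fun x => n' • x) β₀_LC, fun g h => ?_⟩
  have h1 : g • (n' • β₀ h) - n' • β₀ (g * h) + n' • β₀ g
      = n' • (g • β₀ h - β₀ (g * h) + β₀ g) := by
    simp only [smul_sub, smul_add, smul_comm g n']
  show lM (c (g, h)) = g • (n' • β₀ h) - n' • β₀ (g * h) + n' • β₀ g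
  rw [h1, dβ₀, ← mul_nsmul, nsmul_eq_of_mod_eq_one hn' _ (hpM' _)]

end Chase

end Fermat.Agent.S55.Cap
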