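import Fermat.Agent.S55.Cap.IndM

/-!
# S55 / A8 (CAP): elementary cochain lemmas   (helper303)

Pure algebra (Mathlib only, on top of `Cap/IndM.lean`).

* evaluation `IndM.ev`, `IndM.ofFun` (finite index), invariants of `Ind_U X`;
* `shapiro_ind` : Shapiro's lemma for `Ind_U X` in degree 1, injectivity, cochain form:
  a 1-cocycle `f : G → Ind_U X` whose restriction-evaluation `u ↦ f(u)(1̄)` is the coboundary of
  `x₀` on `U` is the coboundary of `F(gU) = g x₀ − f(g)(gU)`;
* `transfer₁` : if a 1-cocycle on `H` is a coboundary on a subgroup `P` of index `m`, then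
  `m •` it is a coboundary on `H`.
-/

set_option autoImplicit false
set_option linter.unusedVariables false
set_option linter.unusedSectionVars false
set_option linter.style.haveILetI false

noncomputable section

namespace Fermat.Agent.S55.Cap

variable {G : Type} [Group G]

namespace IndM

variable (U : Subgroup G) {X Y : Type} [AddCommGroup X] [AddCommGroup Y]

/-- evaluation at a coset -/
def ev (x : G ⧸ U) : IndM U X →+ X := (Finsupp.applyAddHom x).comp (toF U)

lemma ev_apply (x : G ⧸ U) (F : IndM U X) : ev U x F = toF U F x := rfl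

variable {U} in
lemma ext_ev {F F' : IndM U X} (h : ∀ x, ev U x F = ev U x F') : F = F' :=
  Finsupp.ext h

lemma ev_single (x y : G ⧸ U) (a : X) [Decidable (y = x)] :
    ev U x (single U y a) = if y = x then a else 0 := by
  show (Finsupp.single y a) x = _
  rw [Finsupp.single_apply]

lemma ev_single_same (x : G ⧸ U) (a : X) : ev U x (single U x a) = a := by
  classical
  rw [ev_single, if_pos rfl]

lemma ev_single_ne {x y : G ⧸ U} (h : y ≠ x) (a : X) : ev U x (single U y a) = 0 := by
  classical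
  rw [ev_single, if_neg h]

lemma ev_map (φ : X →+ Y) (x : G ⧸ U) (F : IndM U X) : ev U x (map U φ F) = φ (ev U x F) := rfl

lemma ev_smul [DistribMulAction G X] (g : G) (x : G ⧸ U) (F : IndM U X) :
    ev U x (g • F) = g • ev U (g⁻¹ • x) F := by
  classical
  induction F using induction_on with
  | h0 => rw [smul_zero, map_zero, map_zero, smul_zero]
  | hadd F F' hF hF' => rw [smul_add, map_add, map_add, smul_add, hF, hF']
  | hsingle y a =>
    rw [smul_single, ev_single, ev_single]
    by_cases h : g • y = x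
    · have h' : y = g⁻¹ • x := by rw [← h, inv_smul_smul]
      rw [if_pos h, if_pos h']
    · have h' : ¬ y = g⁻¹ • x := fun hy => h (by rw [hy, smul_inv_smul])
      rw [if_neg h, if_neg h', smul_zero]

/-- the element of `Ind_U X` with prescribed values (finite index) -/
def ofFun [U.FiniteIndex] (f : G ⧸ U → X) : IndM U X :=
  haveI : Finite (G ⧸ U) := Subgroup.finite_quotient_of_finiteIndex
  ofF U (Finsupp.equivFunOnFinite.symm f)

@[simp] lemma ev_ofFun [U.FiniteIndex] (f : G ⧸ U → X) (x : G ⧸ U) : ev U x (ofFun U f) = f x :=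
  rfl

end IndM

section Shapiro

variable (U : Subgroup G) {X : Type} [AddCommGroup X] [DistribMulAction G X]

lemma smul_one_coset {u : G} (hu : u ∈ U) : u • ((1 : G) : G ⧸ U) = ((1 : G) : G ⧸ U) := by
  show ((u * 1 : G) : G ⧸ U) = ((1 : G) : G ⧸ U)
  rw [QuotientGroup.eq]
  simpa using U.inv_mem hu

lemma inv_smul_coset_eq_one {t a : G} (h : (t : G ⧸ U) = (a : G ⧸ U)) :
    t⁻¹ • ((a : G) : G ⧸ U) = ((1 : G) : G ⧸ U) := by
  show ((t⁻¹ * a : G) : G ⧸ U) = ((1 : G) : G ⧸ U)
  rw [QuotientGroup.eq] at h ⊢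
  simpa using U.inv_mem h

/-- **Shapiro for `Ind`, degree 1, injectivity (cochain form).** -/
theorem shapiro_ind [U.FiniteIndex] (f : G → IndM U X)
    (hf : ∀ g h, f (g * h) = f g + g • f h) (x₀ : X)
    (hx₀ : ∀ u ∈ U, IndM.ev U ((1 : G) : G ⧸ U) (f u) = u • x₀ - x₀) :
    ∃ F : IndM U X, ∀ g, f g = g • F - F := by
  classical
  -- `Φ y t = t x₀ − f(t)(y)` is constant on the coset `y`
  have hΦ : ∀ (a t : G) (u : G), (t : G ⧸ U) = (a : G ⧸ U) → u ∈ U →
      (t * u) • x₀ - IndM.ev U (a : G ⧸ U) (f (t * u)) = t • x₀ - IndM.ev U (a : G ⧸ U) (f t) := by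
    intro a t u hta hu
    rw [hf, map_add, IndM.ev_smul, inv_smul_coset_eq_one U hta, hx₀ u hu, mul_smul, smul_sub]
    abel
  have hΦ' : ∀ (a t t' : G), (t : G ⧸ U) = (a : G ⧸ U) → (t' : G ⧸ U) = (a : G ⧸ U) →
      t' • x₀ - IndM.ev U (a : G ⧸ U) (f t') = t • x₀ - IndM.ev U (a : G ⧸ U) (f t) := by
    intro a t t' ht ht'
    have h1 : t⁻¹ * t' ∈ U := QuotientGroup.eq.1 (ht.trans ht'.symm)
    have h2 : t' = t * (t⁻¹ * t') := by group
    rw [h2]
    exact hΦ a t _ ht h1
  refine ⟨IndM.ofFun U (fun y => (Quotient.out y) • x₀ - IndM.ev U y (f (Quotient.out y))),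
    fun g => ?_⟩
  apply IndM.ext_ev
  intro y
  induction y using QuotientGroup.induction_on with
  | H a =>
    rw [map_sub, IndM.ev_smul, IndM.ev_ofFun, IndM.ev_ofFun]
    set r' : G := Quotient.out (g⁻¹ • ((a : G) : G ⧸ U)) with hr'
    set r : G := Quotient.out ((a : G) : G ⧸ U) with hr
    have hr1 : ((r : G) : G ⧸ U) = (a : G ⧸ U) := Quotient.out_eq' _
    have hr'1 : ((r' : G) : G ⧸ U) = g⁻¹ • ((a : G) : G ⧸ U) := Quotient.out_eq' _
    have hgr' : (((g * r' : G)) : G ⧸ U) = (a : G ⧸ U) := by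
      have : ((g * r' : G) : G ⧸ U) = g • ((r' : G) : G ⧸ U) := rfl
      rw [this, hr'1, smul_inv_smul]
    -- `g • (r' x₀ − f(r')(g⁻¹ y)) = (g r') x₀ − f(g r')(y) + f(g)(y)`
    have h1 : g • (r' • x₀ - IndM.ev U (g⁻¹ • ((a : G) : G ⧸ U)) (f r'))
        = (g * r') • x₀ - IndM.ev U (a : G ⧸ U) (f (g * r')) + IndM.ev U (a : G ⧸ U) (f g) := by
      rw [hf g r', map_add, IndM.ev_smul, smul_sub, mul_smul]
      abel
    rw [h1, hΦ' a r (g * r') hr1 hgr']
    abel

end Shapiro

section Transfer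

variable {X : Type} [AddCommGroup X] [DistribMulAction G X]

/-- **Transfer in degree 1.**  `H` a finite group acting on `X`, `P ≤ H` a subgroup,
`z` a 1-cocycle on `H` which is the coboundary of `y` on `P`.  Then `[H : P] • z` is a coboundary. -/
theorem transfer₁ (P : Subgroup G) [P.FiniteIndex] (z : G → X)
    (hz : ∀ g h, z (g * h) = z g + g • z h) (y : X) (hy : ∀ π ∈ P, z π = π • y - y) :
    ∃ c : X, ∀ g, P.index • z g = g • c - c := by
  classical
  haveI : Finite (G ⧸ P) := Subgroup.finite_quotient_of_finiteIndex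
  haveI : Fintype (G ⧸ P) := Fintype.ofFinite _
  -- `z' = z − d⁰ y` vanishes on `P` and is constant on left cosets of `P`
  obtain ⟨z', hz'⟩ : ∃ z' : G → X, ∀ g, z' g = z g - (g • y - y) := ⟨_, fun _ => rfl⟩
  have hz'c : ∀ g h, z' (g * h) = z' g + g • z' h := by
    intro g h
    rw [hz', hz', hz', hz, mul_smul, smul_sub, smul_sub]
    abel
  have hz'P : ∀ π ∈ P, z' π = 0 := fun π hπ => by
    rw [hz', hy π hπ, sub_self]
  have hz'coset : ∀ g g' : G, ((g : G) : G ⧸ P) = (g' : G ⧸ P) → z' g = z' g' := by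
    intro g g' h
    have h1 : g⁻¹ * g' ∈ P := QuotientGroup.eq.1 h
    have h2 : g' = g * (g⁻¹ * g') := by group
    rw [h2, hz'c, hz'P _ h1, smul_zero, add_zero]
  obtain ⟨w, hw⟩ : ∃ w : X, w = ∑ t : G ⧸ P, z' (Quotient.out t) := ⟨_, rfl⟩
  have hgw : ∀ g : G, g • w = w - P.index • z' g := by
    intro g
    have h1 : g • w = ∑ t : G ⧸ P, (z' (Quotient.out (g • t)) - z' g) := by
      rw [hw, Finset.smul_sum]
      apply Finset.sum_congr rfl
      intro t _
      have h2 : z' (g * Quotient.out t) = z' (Quotient.out (g • t)) := by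
        apply hz'coset
        have : ((g * Quotient.out t : G) : G ⧸ P) = g • ((Quotient.out t : G) : G ⧸ P) := rfl
        rw [this, QuotientGroup.out_eq', QuotientGroup.out_eq']
      rw [← h2, hz'c]
      abel
    rw [h1, Finset.sum_sub_distrib, Finset.sum_const, Finset.card_univ]
    congr 1
    · rw [hw]
      exact Fintype.sum_equiv (MulAction.toPerm g) _ _ (fun t => rfl)
    · rw [Subgroup.index_eq_card, Nat.card_eq_fintype_card]
  refine ⟨P.index • y - w, fun g => ?_⟩
  have h3 : z g = z' g + (g • y - y) := by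
    rw [hz']
    abel
  have h4 : P.index • z' g = w - g • w := by
    rw [hgw g]
    abel
  rw [h3, smul_add, h4, smul_sub, smul_sub, smul_comm g P.index y]
  abel

end Transfer

end Fermat.Agent.S55.Cap
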