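import Fermat.Agent.S55.Cap.Dict
import Fermat.Agent.S55.Cap.Shapiro

/-!
# S55 / A8 (CAP): the tower datum in the language of the big modules   (helper303)

For a tower datum `D` and a level `L`:
* `CL D L` : `C(L)` as a `G_ℚ`-module (action through `Gal(L/ℚ)`);
* `jS D L : J(L) → C(L)`, `X ↦ Σ_q j_q(X_q)`; equivariant (`jS_act`), kernel = diagonal `S`-units
  (`jS_diag`, `exists_diag_of_jS_eq_zero` : GD4), compatible with transition (`jS_tr` : GD7a);
* `trC h : C(L) → C(L')`, equivariant, transitive (GD7b);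
* capitulation (GD5 + GD11): `exists_cap`, `exists_cap_ind`.
-/

set_option autoImplicit false
set_option linter.unusedVariables false
set_option linter.unusedSectionVars false
set_option linter.style.haveILetI false

noncomputable section

namespace Fermat.Agent.S55.Cap

open Fermat.Agent.S55.PT Fermat.Agent.S55.Tow groupCohomology

variable {S : Finset Nat.Primes} (D : TowerDatum S)

/-- `C(L)` as a `G_ℚ`-module -/
def CL (L : Level S) : Type := (D.C L).V

instance CL.instAddCommGroup (L : Level S) : AddCommGroup (CL D L) :=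
  inferInstanceAs (AddCommGroup (D.C L).V)

/-- the underlying element of `C(L)` -/
def CL.val (L : Level S) : CL D L →+ (D.C L).V := AddMonoidHom.id _

/-- the element of `CL D L` given by an element of `C(L)` -/
def CL.of (L : Level S) : (D.C L).V →+ CL D L := AddMonoidHom.id _

instance CL.instDistribMulAction (L : Level S) : DistribMulAction Tow.GQ (CL D L) where
  smul g c := CL.of D L ((D.C L).ρ (QuotientGroup.mk g) (CL.val D L c))
  one_smul c := by
    show (D.C L).ρ (QuotientGroup.mk (1 : Tow.GQ)) (CL.val D L c) = CL.val D L c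
    rw [QuotientGroup.mk_one, map_one]
    rfl
  mul_smul g h c := by
    show (D.C L).ρ (QuotientGroup.mk (g * h)) (CL.val D L c)
      = (D.C L).ρ (QuotientGroup.mk g) ((D.C L).ρ (QuotientGroup.mk h) (CL.val D L c))
    rw [QuotientGroup.mk_mul, map_mul]
    rfl
  smul_zero g := map_zero ((D.C L).ρ (QuotientGroup.mk g))
  smul_add g c c' := map_add ((D.C L).ρ (QuotientGroup.mk g)) (CL.val D L c) (CL.val D L c')

lemma CL.smul_def (L : Level S) (g : Tow.GQ) (c : CL D L) :
    g • c = CL.of D L ((D.C L).ρ (QuotientGroup.mk g) (CL.val D L c)) := rfl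

lemma CL.smul_of_mem (L : Level S) {u : Tow.GQ} (hu : u ∈ L.U) (c : CL D L) : u • c = c := by
  have h1 : (QuotientGroup.mk u : L.Gal) = 1 := (QuotientGroup.eq_one_iff u).2 hu
  show (D.C L).ρ (QuotientGroup.mk u) (CL.val D L c) = CL.val D L c
  rw [h1, map_one]
  rfl

/-- `J(L) → C(L)` -/
def jS (L : Level S) : LJ L →+ CL D L where
  toFun X := CL.of D L (∑ q : ↥S, (D.j L q.1).hom (X q))
  map_zero' := by
    show ∑ q : ↥S, (D.j L q.1).hom ((0 : LJ L) q) = 0
    apply Finset.sum_eq_zero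
    intro q _
    exact map_zero _
  map_add' X Y := by
    show ∑ q : ↥S, (D.j L q.1).hom ((X + Y) q)
      = ∑ q : ↥S, (D.j L q.1).hom (X q) + ∑ q : ↥S, (D.j L q.1).hom (Y q)
    rw [← Finset.sum_add_distrib]
    apply Finset.sum_congr rfl
    intro q _
    exact map_add _ _ _

lemma jS_apply (L : Level S) (X : LJ L) :
    CL.val D L (jS D L X) = ∑ q : ↥S, (D.j L q.1).hom (X q) := rfl

lemma isLocalSum_iff (L : Level S) (c : (D.C L).V) :
    D.IsLocalSum L c ↔ ∃ X : LJ L, CL.of D L c = jS D L X := Iff.rfl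

lemma jS_act (L : Level S) (g : Tow.GQ) (X : LJ L) : jS D L (LJ.act L g X) = g • jS D L X := by
  show ∑ q : ↥S, (D.j L q.1).hom ((L.J q.1).ρ (QuotientGroup.mk g) (X q))
    = (D.C L).ρ (QuotientGroup.mk g) (∑ q : ↥S, (D.j L q.1).hom (X q))
  rw [map_sum]
  apply Finset.sum_congr rfl
  intro q _
  exact Rep.hom_comm_apply (D.j L q.1) (QuotientGroup.mk g) (X q)

/-- the transition map `C(L) → C(L')` -/
def trC {L L' : Level S} (h : L ≤ L') : CL D L →+ CL D L' where
  toFun c := CL.of D L' ((D.tr h).hom (CL.val D L c))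
  map_zero' := map_zero (D.tr h).hom
  map_add' c c' := map_add (D.tr h).hom (CL.val D L c) (CL.val D L c')

lemma trC_smul {L L' : Level S} (h : L ≤ L') (g : Tow.GQ) (c : CL D L) :
    trC D h (g • c) = g • trC D h c :=
  Rep.hom_comm_apply (D.tr h) (QuotientGroup.mk g) (CL.val D L c)

variable {D} {p : ℕ}

lemma jS_diag (hD : D.IsGoodMu p) (L : Level S) (e : L.units.V) (he : L.IsSUnit e) :
    jS D L (LJ.diag L e) = 0 :=
  (hD.gd4 L (LJ.diag L e)).2 ⟨e, he, fun q => rfl⟩

lemma exists_diag_of_jS_eq_zero (hD : D.IsGoodMu p) (L : Level S) (X : LJ L)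
    (hX : jS D L X = 0) : ∃ (e : L.units.V) (he : L.IsSUnit e), X = LJ.diag L e := by
  obtain ⟨e, he, h⟩ := (hD.gd4 L X).1 hX
  exact ⟨e, he, funext h⟩

/-- kernel of `jS` in terms of the big modules -/
lemma exists_iEJ_of_jS_eq_zero (hD : D.IsGoodMu p) (L : Level S) (X : LJ L)
    (hX : jS D L X = 0) : ∃ x : SU S, iEJ S x = JJS.ofLevel L X := by
  obtain ⟨e, he, rfl⟩ := exists_diag_of_jS_eq_zero hD L X hX
  exact ⟨SU.ofLevel L e he, (JJS.ofLevel_diag L e he).symm⟩

lemma jS_tr (hD : D.IsGoodMu p) {L L' : Level S} (h : L ≤ L') (X : LJ L) :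
    trC D h (jS D L X) = jS D L' (LJ.tr h X) := by
  show (D.tr h).hom (∑ q : ↥S, (D.j L q.1).hom (X q))
    = ∑ q : ↥S, (D.j L' q.1).hom ((Level.trJ h q.1).hom (X q))
  rw [map_sum]
  apply Finset.sum_congr rfl
  intro q _
  exact hD.gd7a h q.1 q.2 (X q)

lemma trC_trC (hD : D.IsGoodMu p) {L L' L'' : Level S} (h : L ≤ L') (h' : L' ≤ L'')
    (c : CL D L) : trC D h' (trC D h c) = trC D (h.trans h') c :=
  hD.gd7b h h' (CL.val D L c)

/-- **capitulation** (GD5 + GD11): every element of `C(L)` becomes, up to a prime-to-`p` factor,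
a local sum at a higher level -/
lemma exists_cap (hp : p.Prime) (hD : D.IsGoodMu p) (hT : ClTorsion D) (L : Level S)
    (c : CL D L) :
    ∃ (n : ℕ) (L' : Level S) (h : L ≤ L') (X : LJ L'), n.Coprime p ∧
      n • trC D h c = jS D L' X := by
  obtain ⟨n₀, hn₀, hloc⟩ := hT L (CL.val D L c)
  obtain ⟨a, n, hn, rfl⟩ := Nat.exists_eq_pow_mul_and_not_dvd hn₀.ne' p hp.ne_one
  have h1 : D.IsLocalSum L (p ^ a • (n • CL.val D L c)) := by
    rw [← mul_nsmul']
    exact hloc
  obtain ⟨L', h, X, hX⟩ := hD.gd5 L (n • CL.val D L c) a h1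
  refine ⟨n, L', h, X, ?_, ?_⟩
  · exact (Nat.Coprime.symm ((Nat.Prime.coprime_iff_not_dvd hp).2 hn))
  · rw [← map_nsmul]
    exact hX

end Fermat.Agent.S55.Cap
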