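import Fermat.Agent.S55.Cap.DatumDict

/-!
# S55 / A8 (CAP): the tower datum and induced modules   (helper303)

* more `IndM` API: `exists_map_eq_of_forall`, `map_eq_zero_iff`, `ev_of_fixed`;
* `LJ L` as a `G_ℚ`-module; `IndM.map (jS D L)` kills exactly what comes from `Ind_U 𝔼`
  (`map_jS_eq_zero_of`, `exists_of_map_jS_eq_zero`);
* capitulation for induced modules `exists_cap_ind`.
-/

set_option autoImplicit false
set_option linter.unusedVariables false
set_option linter.unusedSectionVars false
set_option linter.style.haveILetI false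

noncomputable section

namespace Fermat.Agent.S55.Cap

open Fermat.Agent.S55.PT Fermat.Agent.S55.Tow groupCohomology

namespace IndM

variable {G : Type} [Group G] (U : Subgroup G) {X Y : Type} [AddCommGroup X] [AddCommGroup Y]

lemma exists_map_eq_of_forall (φ : X →+ Y) (F : IndM U Y) (h : ∀ x, ∃ a : X, φ a = ev U x F) :
    ∃ F' : IndM U X, map U φ F' = F := by
  classical
  choose s hs using h
  refine ⟨ofF U (Finsupp.onFinset (toF U F).support (fun x => if toF U F x = 0 then 0 else s x)
    (fun x hx => ?_)), ?_⟩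
  · rw [Finsupp.mem_support_iff]
    intro h0
    exact hx (by rw [if_pos h0])
  · apply Finsupp.ext
    intro x
    show φ (if toF U F x = 0 then 0 else s x) = toF U F x
    split_ifs with h0
    · rw [map_zero, h0]
    · exact hs x

lemma map_eq_zero_iff (φ : X →+ Y) (F : IndM U X) :
    map U φ F = 0 ↔ ∀ x, φ (ev U x F) = 0 := by
  constructor
  · intro h x
    rw [← ev_map, h, map_zero]
  · intro h
    apply ext_ev
    intro x
    rw [ev_map, h x, map_zero]

lemma ev_nsmul (n : ℕ) (x : G ⧸ U) (F : IndM U X) : ev U x (n • F) = n • ev U x F :=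
  map_nsmul (ev U x) n F

/-- an element of a normal subgroup `U` fixes all cosets of `U` -/
lemma smul_coset_of_mem [hU : U.Normal] {u : G} (hu : u ∈ U) (x : G ⧸ U) : u • x = x := by
  induction x using QuotientGroup.induction_on with
  | H g =>
    show ((u * g : G) : G ⧸ U) = (g : G ⧸ U)
    rw [QuotientGroup.eq]
    have : (u * g)⁻¹ * g = g⁻¹ * u⁻¹ * g := by group
    rw [this]
    have := hU.conj_mem u⁻¹ (U.inv_mem hu) g⁻¹
    simpa using this

/-- the coefficients of an element fixed by `u ∈ U` are fixed by `u` -/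
lemma ev_of_fixed [U.Normal] [DistribMulAction G X] {u : G} (hu : u ∈ U) {F : IndM U X}
    (hF : u • F = F) (x : G ⧸ U) : u • ev U x F = ev U x F := by
  have h := congrArg (ev U x) hF
  rw [ev_smul, smul_coset_of_mem U (U.inv_mem hu)] at h
  exact h

/-- an element with fixed coefficients is fixed -/
lemma fixed_of_ev [U.Normal] [DistribMulAction G X] {u : G} (hu : u ∈ U) {F : IndM U X}
    (hF : ∀ x, u • ev U x F = ev U x F) : u • F = F := by
  apply ext_ev
  intro x
  rw [ev_smul, smul_coset_of_mem U (U.inv_mem hu), hF]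

end IndM

variable {S : Finset Nat.Primes}

/-- `J(L)` as a `G_ℚ`-module -/
instance LJ.instDistribMulAction (L : Level S) : DistribMulAction Tow.GQ (LJ L) where
  smul g X := LJ.act L g X
  one_smul X := by
    funext q
    show (L.J q.1).ρ (QuotientGroup.mk (1 : Tow.GQ)) (X q) = X q
    rw [QuotientGroup.mk_one, map_one]
    rfl
  mul_smul g h X := by
    funext q
    show (L.J q.1).ρ (QuotientGroup.mk (g * h)) (X q)
      = (L.J q.1).ρ (QuotientGroup.mk g) ((L.J q.1).ρ (QuotientGroup.mk h) (X q))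
    rw [QuotientGroup.mk_mul, map_mul]
    rfl
  smul_zero g := map_zero (LJ.act L g)
  smul_add g X Y := map_add (LJ.act L g) X Y

lemma LJ.smul_def (L : Level S) (g : Tow.GQ) (X : LJ L) : g • X = LJ.act L g X := rfl

lemma JJS.ofLevel_smul (L : Level S) (g : Tow.GQ) (X : LJ L) :
    JJS.ofLevel L (g • X) = g • JJS.ofLevel L X := JJS.ofLevel_act L g X

lemma LJ.tr_smul {L L' : Level S} (h : L ≤ L') (g : Tow.GQ) (X : LJ L) :
    LJ.tr h (g • X) = g • LJ.tr h X := by
  apply JJS.ofLevel_injective L'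
  rw [JJS.ofLevel_smul, JJS.ofLevel_tr, JJS.ofLevel_tr, JJS.ofLevel_smul]

variable (D : TowerDatum S)

lemma jS_smul (L : Level S) (g : Tow.GQ) (X : LJ L) : jS D L (g • X) = g • jS D L X :=
  jS_act D L g X

variable {D} {p : ℕ}

/-- an element of `J(L)` which comes from `𝔼` is killed by `jS` -/
lemma jS_eq_zero_of (hD : D.IsGoodMu p) (L : Level S) (X : LJ L) (x : SU S)
    (hx : iEJ S x = JJS.ofLevel L X) (hS : S.Nonempty) : jS D L X = 0 := by
  have hfix : ∀ u ∈ L.U, u • x = x := by
    intro u hu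
    apply iEJ_injective S hS
    rw [iEJ_smul, hx, JJS.ofLevel_fixed L X u hu]
  obtain ⟨e, he, rfl⟩ := SU.exists_ofLevel L x hfix
  have h1 : X = LJ.diag L e := by
    apply JJS.ofLevel_injective L
    rw [← hx, JJS.ofLevel_diag L e he]
  rw [h1]
  exact jS_diag hD L e he

variable (U : Subgroup Tow.GQ)

lemma map_jS_eq_zero_of (hD : D.IsGoodMu p) (hS : S.Nonempty) (L : Level S) (Y : IndM U (LJ L))
    (e : IndM U (SU S)) (he : IndM.map U (iEJ S) e = IndM.map U (JJS.ofLevel L) Y) :
    IndM.map U (jS D L) Y = 0 := by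
  rw [IndM.map_eq_zero_iff]
  intro x
  apply jS_eq_zero_of hD L _ (IndM.ev U x e) _ hS
  rw [← IndM.ev_map, he, IndM.ev_map]

lemma exists_of_map_jS_eq_zero (hD : D.IsGoodMu p) (L : Level S) (Y : IndM U (LJ L))
    (hY : IndM.map U (jS D L) Y = 0) :
    ∃ e : IndM U (SU S), IndM.map U (iEJ S) e = IndM.map U (JJS.ofLevel L) Y := by
  apply IndM.exists_map_eq_of_forall
  intro x
  rw [IndM.map_eq_zero_iff] at hY
  obtain ⟨a, ha⟩ := exists_iEJ_of_jS_eq_zero hD L _ (hY x)
  exact ⟨a, by rw [ha, IndM.ev_map]⟩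

/-- **capitulation for induced modules** -/
lemma exists_cap_ind (hp : p.Prime) (hD : D.IsGoodMu p) (hT : ClTorsion D) (L : Level S)
    (F : IndM U (CL D L)) :
    ∃ (n : ℕ) (L' : Level S) (h : L ≤ L') (Q : IndM U (LJ L')), n.Coprime p ∧
      n • IndM.map U (trC D h) F = IndM.map U (jS D L') Q := by
  induction F using IndM.induction_on with
  | h0 =>
    exact ⟨1, L, le_refl _, 0, Nat.coprime_one_left p, by rw [map_zero, map_zero, smul_zero]⟩
  | hadd F F' hF hF' =>
    obtain ⟨n, L', h, Q, hn, hQ⟩ := hF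
    obtain ⟨n', L'', h', Q', hn', hQ'⟩ := hF'
    have h1 : L' ≤ capSup S L' L'' := le_capSup_left S L' L''
    have h2 : L'' ≤ capSup S L' L'' := le_capSup_right S L' L''
    refine ⟨n * n', capSup S L' L'', le_trans h h1,
      n' • IndM.map U (LJ.tr h1) Q + n • IndM.map U (LJ.tr h2) Q', Nat.Coprime.mul_left hn hn', ?_⟩
    have c1 : (trC D h1).comp (trC D h) = trC D (le_trans h h1) :=
      AddMonoidHom.ext fun c => trC_trC hD h h1 c
    have c2 : (trC D h2).comp (trC D h') = trC D (le_trans h h1) :=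
      AddMonoidHom.ext fun c => trC_trC hD h' h2 c
    have c3 : (jS D (capSup S L' L'')).comp (LJ.tr h1) = (trC D h1).comp (jS D L') :=
      AddMonoidHom.ext fun X => (jS_tr hD h1 X).symm
    have c4 : (jS D (capSup S L' L'')).comp (LJ.tr h2) = (trC D h2).comp (jS D L'') :=
      AddMonoidHom.ext fun X => (jS_tr hD h2 X).symm
    have e1 : IndM.map U (jS D (capSup S L' L'')) (IndM.map U (LJ.tr h1) Q)
        = n • IndM.map U (trC D (le_trans h h1)) F := by
      rw [← IndM.map_comp, c3, IndM.map_comp, ← hQ, map_nsmul, ← IndM.map_comp, c1]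
    have e2 : IndM.map U (jS D (capSup S L' L'')) (IndM.map U (LJ.tr h2) Q')
        = n' • IndM.map U (trC D (le_trans h h1)) F' := by
      rw [← IndM.map_comp, c4, IndM.map_comp, ← hQ', map_nsmul, ← IndM.map_comp, c2]
    rw [map_add, map_add, map_nsmul, map_nsmul, e1, e2, smul_add, mul_nsmul, mul_nsmul']
  | hsingle x c =>
    obtain ⟨n, L', h, X, hn, hX⟩ := exists_cap hp hD hT L c
    refine ⟨n, L', h, IndM.single U x X, hn, ?_⟩
    rw [IndM.map_single, IndM.map_single, ← hX]
    show IndM.ofF U (n • Finsupp.single x _) = IndM.ofF U (Finsupp.single x (n • _))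
    rw [Finsupp.smul_single]

end Fermat.Agent.S55.Cap
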