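import Fermat.Agent.S55.Cap.Spec
import Fermat.Agent.S55.Bridge.InertiaConj

/-!
# S55 / A8 (CAP): dictionary between the big modules and the tower   (helper303)

For a level `L : Tow.Level S`:
* `JJ.toLevel L q f hf : (L.J q).V` for `f ∈ 𝕁_q` fixed by `L.U`, and `JJ.ofLevel L q : (L.J q).V →+ 𝕁_q`
  (mutually inverse, compatible with the actions, the transition maps `Level.trJ` and the diagonal);
* `SU.toLevel`, `SU.ofLevel` : the same for `𝔼` and `{e : L.units.V // L.IsSUnit e}`.
-/

set_option autoImplicit false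
set_option linter.unusedVariables false
set_option linter.unusedSectionVars false
set_option linter.style.haveILetI false

noncomputable section

namespace Fermat.Agent.S55.Cap

open Fermat.Agent.S55.PT Fermat.Agent.S55.Tow

variable {S : Finset Nat.Primes}

/-! ### `𝕁_q` at level `L` -/

lemma JJ.ev_mul_of_fixed (L : Level S) {q : Nat.Primes} {f : JJ S q}
    (hf : ∀ u ∈ L.U, u • f = f) (g : Tow.GQ) {u : Tow.GQ} (hu : u ∈ L.U) :
    JJ.ev S q (g * u) f = JJ.ev S q g f := by
  have h := congrArg (JJ.ev S q g) (hf u hu)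
  rwa [JJ.ev_smul] at h

lemma JJ.ev_fixed (L : Level S) {q : Nat.Primes} {f : JJ S q}
    (hf : ∀ u ∈ L.U, u • f = f) (g : Tow.GQ) (d : GQp q) (hd : d ∈ L.V q) :
    (unitsQpbar q).ρ d (JJ.ev S q g f) = JJ.ev S q g f := by
  rw [← JJ.ev_mul_left]
  have h1 : locQ q d * g = g * (g⁻¹ * locQ q d * g) := by group
  rw [h1]
  exact JJ.ev_mul_of_fixed L hf g (Level.conj_mem_U' S L hd g)

lemma JJ.ev_eq_of_mk_eq (L : Level S) {q : Nat.Primes} {f : JJ S q}
    (hf : ∀ u ∈ L.U, u • f = f) {g g' : Tow.GQ}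
    (h : (QuotientGroup.mk g : L.Gal) = QuotientGroup.mk g') :
    JJ.ev S q g f = JJ.ev S q g' f := by
  have h1 : g⁻¹ * g' ∈ L.U := QuotientGroup.eq.1 h
  have h2 : g' = g * (g⁻¹ * g') := by group
  rw [h2, JJ.ev_mul_of_fixed L hf g h1]

/-- the element of `J_q(L) = Coind L_qˣ` defined by an `L.U`-fixed element of `𝕁_q` -/
def JJ.toLevel (L : Level S) (q : Nat.Primes) (f : JJ S q) (hf : ∀ u ∈ L.U, u • f = f) :
    (L.J q).V :=
  ⟨fun x => L.locMk q (JJ.ev S q (Quotient.out x) f)
      (fun d hd => JJ.ev_fixed L hf _ d hd), by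
    intro d x
    induction d using QuotientGroup.induction_on with
    | H d =>
      apply L.locCoe_injective q
      show JJ.ev S q (Quotient.out (L.decHom q (QuotientGroup.mk d) * x)) f
        = (unitsQpbar q).ρ d (JJ.ev S q (Quotient.out x) f)
      rw [← JJ.ev_mul_left]
      apply JJ.ev_eq_of_mk_eq L hf
      rw [QuotientGroup.mk_mul]
      show Quotient.mk'' (Quotient.out (L.decHom q (QuotientGroup.mk d) * x)) = _
      rw [Quotient.out_eq']
      congr 1
      exact (Quotient.out_eq' x).symm⟩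

lemma JJ.locCoe_toLevel (L : Level S) (q : Nat.Primes) (f : JJ S q) (hf : ∀ u ∈ L.U, u • f = f)
    (g : Tow.GQ) :
    L.locCoe q (L.Jeval q (JJ.toLevel L q f hf) (QuotientGroup.mk g)) = JJ.ev S q g f := by
  show JJ.ev S q (Quotient.out (QuotientGroup.mk g : L.Gal)) f = JJ.ev S q g f
  apply JJ.ev_eq_of_mk_eq L hf
  exact Quotient.out_eq' _

/-- the element of `𝕁_q` defined by an element of `J_q(L)` -/
def JJ.ofLevel (L : Level S) (q : Nat.Primes) : (L.J q).V →+ JJ S q where
  toFun F := JJ.mk S q (fun g => L.locCoe q (L.Jeval q F (QuotientGroup.mk g)))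
    (fun d g => by
      have h := L.Jeval_mul q F (QuotientGroup.mk d) (QuotientGroup.mk g)
      have h' := congrArg (L.locCoe q) h
      exact h')
    ⟨L, fun u hu g => by
      have : (QuotientGroup.mk (g * u) : L.Gal) = QuotientGroup.mk g := by
        rw [QuotientGroup.eq]
        have : (g * u)⁻¹ * g = u⁻¹ := by group
        rw [this]
        exact L.U.inv_mem hu
      rw [this]⟩
  map_zero' := by
    apply JJ.ext
    intro g
    rfl
  map_add' F F' := by
    apply JJ.ext
    intro g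
    rfl

@[simp] lemma JJ.ev_ofLevel (L : Level S) (q : Nat.Primes) (F : (L.J q).V) (g : Tow.GQ) :
    JJ.ev S q g (JJ.ofLevel L q F) = L.locCoe q (L.Jeval q F (QuotientGroup.mk g)) := rfl

lemma JJ.ofLevel_fixed (L : Level S) (q : Nat.Primes) (F : (L.J q).V) :
    ∀ u ∈ L.U, u • JJ.ofLevel L q F = JJ.ofLevel L q F := by
  intro u hu
  apply JJ.ext
  intro g
  rw [JJ.ev_smul, JJ.ev_ofLevel, JJ.ev_ofLevel]
  have : (QuotientGroup.mk (g * u) : L.Gal) = QuotientGroup.mk g := by
    rw [QuotientGroup.eq]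
    have : (g * u)⁻¹ * g = u⁻¹ := by group
    rw [this]
    exact L.U.inv_mem hu
  rw [this]

lemma JJ.ofLevel_toLevel (L : Level S) (q : Nat.Primes) (f : JJ S q)
    (hf : ∀ u ∈ L.U, u • f = f) : JJ.ofLevel L q (JJ.toLevel L q f hf) = f := by
  apply JJ.ext
  intro g
  rw [JJ.ev_ofLevel, JJ.locCoe_toLevel]

lemma JJ.ofLevel_injective (L : Level S) (q : Nat.Primes) :
    Function.Injective (JJ.ofLevel L q) := by
  intro F F' h
  apply L.J_ext q
  intro x
  induction x using QuotientGroup.induction_on with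
  | H g =>
    apply L.locCoe_injective q
    have := congrArg (JJ.ev S q g) h
    exact this

lemma JJ.toLevel_ofLevel (L : Level S) (q : Nat.Primes) (F : (L.J q).V) :
    JJ.toLevel L q (JJ.ofLevel L q F) (JJ.ofLevel_fixed L q F) = F :=
  JJ.ofLevel_injective L q (JJ.ofLevel_toLevel L q _ _)

/-- `ofLevel` is equivariant -/
lemma JJ.ofLevel_ρ (L : Level S) (q : Nat.Primes) (g : Tow.GQ) (F : (L.J q).V) :
    JJ.ofLevel L q ((L.J q).ρ (QuotientGroup.mk g) F) = g • JJ.ofLevel L q F := by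
  apply JJ.ext
  intro g'
  rw [JJ.ev_smul, JJ.ev_ofLevel, JJ.ev_ofLevel, L.Jeval_ρ]
  rfl

/-- `ofLevel` is compatible with the transition maps -/
lemma JJ.ofLevel_trJ {L L' : Level S} (h : L ≤ L') (q : Nat.Primes) (F : (L.J q).V) :
    JJ.ofLevel L' q ((Level.trJ h q).hom F) = JJ.ofLevel L q F := by
  apply JJ.ext
  intro g
  rfl

/-! ### `𝕁` at level `L` -/

/-- `J(L) = ∏_{q ∈ S} J_q(L)` -/
abbrev LJ (L : Level S) : Type := (q : ↥S) → (L.J q.1).V

/-- the action of `G_ℚ` on `J(L)` (through `Gal(L/ℚ)`) -/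
def LJ.act (L : Level S) (g : Tow.GQ) : LJ L →+ LJ L where
  toFun X := fun q => (L.J q.1).ρ (QuotientGroup.mk g) (X q)
  map_zero' := by
    funext q
    exact map_zero _
  map_add' X Y := by
    funext q
    exact map_add _ _ _

/-- `J(L) → 𝕁` -/
def JJS.ofLevel (L : Level S) : LJ L →+ JJS S where
  toFun X := fun q => JJ.ofLevel L q.1 (X q)
  map_zero' := by
    funext q
    exact map_zero _
  map_add' X Y := by
    funext q
    exact map_add _ _ _

@[simp] lemma JJS.proj_ofLevel (L : Level S) (X : LJ L) (q : ↥S) :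
    JJS.proj S q (JJS.ofLevel L X) = JJ.ofLevel L q.1 (X q) := rfl

lemma JJS.ofLevel_injective (L : Level S) : Function.Injective (JJS.ofLevel L) := by
  intro X Y h
  funext q
  exact JJ.ofLevel_injective L q.1 (congrFun h q)

lemma JJS.ofLevel_act (L : Level S) (g : Tow.GQ) (X : LJ L) :
    JJS.ofLevel L (LJ.act L g X) = g • JJS.ofLevel L X := by
  funext q
  exact JJ.ofLevel_ρ L q.1 g (X q)

lemma JJS.ofLevel_fixed (L : Level S) (X : LJ L) :
    ∀ u ∈ L.U, u • JJS.ofLevel L X = JJS.ofLevel L X := by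
  intro u hu
  funext q
  exact JJ.ofLevel_fixed L q.1 (X q) u hu

lemma JJS.exists_ofLevel (L : Level S) (x : JJS S) (hx : ∀ u ∈ L.U, u • x = x) :
    ∃ X : LJ L, JJS.ofLevel L X = x := by
  have hq : ∀ q : ↥S, ∀ u ∈ L.U, u • JJS.proj S q x = JJS.proj S q x := by
    intro q u hu
    rw [← JJS.proj_smul, hx u hu]
  refine ⟨fun q => JJ.toLevel L q.1 (JJS.proj S q x) (hq q), ?_⟩
  funext q
  exact JJ.ofLevel_toLevel L q.1 _ _

/-- the transition map `J(L) → J(L')` -/
def LJ.tr {L L' : Level S} (h : L ≤ L') : LJ L →+ LJ L' where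
  toFun X := fun q => (Level.trJ h q.1).hom (X q)
  map_zero' := by
    funext q
    exact map_zero _
  map_add' X Y := by
    funext q
    exact map_add _ _ _

lemma JJS.ofLevel_tr {L L' : Level S} (h : L ≤ L') (X : LJ L) :
    JJS.ofLevel L' (LJ.tr h X) = JJS.ofLevel L X := by
  funext q
  exact JJ.ofLevel_trJ h q.1 (X q)

/-! ### `𝔼` at level `L` -/

/-- the element of `𝔼` defined by an `S`-unit of `L` -/
def SU.ofLevel (L : Level S) (e : L.units.V) (he : L.IsSUnit e) : SU S :=
  SU.mk S (L.unitsCoe e) he ⟨L, fun g hg => L.unitsCoe_fixed e g hg⟩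

@[simp] lemma SU.val_ofLevel (L : Level S) (e : L.units.V) (he : L.IsSUnit e) :
    SU.val S (SU.ofLevel L e he) = L.unitsCoe e := rfl

lemma SU.ofLevel_fixed (L : Level S) (e : L.units.V) (he : L.IsSUnit e) :
    ∀ u ∈ L.U, u • SU.ofLevel L e he = SU.ofLevel L e he :=
  fun u hu => SU.ext S (L.unitsCoe_fixed e u hu)

lemma SU.exists_ofLevel (L : Level S) (x : SU S) (hx : ∀ u ∈ L.U, u • x = x) :
    ∃ (e : L.units.V) (he : L.IsSUnit e), SU.ofLevel L e he = x := by
  refine ⟨L.unitsMk (SU.val S x) (fun g hg => ?_), SU.isSUq S x, ?_⟩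
  · have := congrArg (SU.val S) (hx g hg)
    exact this
  · apply SU.ext
    rfl

/-- the diagonal at level `L` -/
def LJ.diag (L : Level S) (e : L.units.V) : LJ L := fun q => (L.diag q.1).hom e

lemma JJS.ofLevel_diag (L : Level S) (e : L.units.V) (he : L.IsSUnit e) :
    JJS.ofLevel L (LJ.diag L e) = iEJ S (SU.ofLevel L e he) := by
  funext q
  apply JJ.ext
  intro g
  rfl

/-! ### level-constant cochains live at a finite level -/

/-- a level of `globalLevels S` contains `L.U` for some `L : Level S` -/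
lemma exists_level_le {W : Subgroup Tow.GQ} (hW : W ∈ (globalLevels S).levels) :
    ∃ L : Level S, L.U ≤ W := by
  obtain ⟨F, hF, rfl⟩ := hW
  obtain ⟨F', hF', hgal, hle⟩ := Fermat.Agent.S55.Bridge.exists_galois_level_ge S F hF
  haveI := Fermat.Agent.S55.Bridge.isAlgebraic_Qbar
  haveI := Fermat.Agent.S55.Bridge.isGalois_Qbar
  exact ⟨⟨F', hF', (InfiniteGalois.normal_iff_isGalois F').mpr hgal⟩,
    IntermediateField.fixingSubgroup_antitone hle⟩

/-- finitely many smooth elements are fixed by a common level -/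
lemma exists_level_finset {X : Type} [AddCommGroup X] [DistribMulAction Tow.GQ X]
    (hX : ∀ a : X, ∃ L : Level S, ∀ u ∈ L.U, u • a = a) (T : Finset X) (L₀ : Level S) :
    ∃ L : Level S, L₀ ≤ L ∧ ∀ a ∈ T, ∀ u ∈ L.U, u • a = a := by
  classical
  induction T using Finset.induction_on with
  | empty => exact ⟨L₀, le_refl _, fun a ha => absurd ha (Finset.notMem_empty a)⟩
  | insert a T ha ih =>
    obtain ⟨L, hL0, hL⟩ := ih
    obtain ⟨L', hL'⟩ := hX a
    refine ⟨capSup S L L', le_trans hL0 (le_capSup_left S L L'), fun b hb u hu => ?_⟩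
    rcases Finset.mem_insert.1 hb with rfl | hb'
    · exact hL' u (Level.U_anti (le_capSup_right S L L') hu)
    · exact hL b hb' u (Level.U_anti (le_capSup_left S L L') hu)

/-- a level-constant cochain with smooth values lives at a finite level: it is right-invariant
under `L.U` and all its values are fixed by `L.U` -/
lemma exists_level_of_isLC₁ {X : Type} [AddCommGroup X] [DistribMulAction Tow.GQ X]
    (hX : ∀ a : X, ∃ L : Level S, ∀ u ∈ L.U, u • a = a) {b : Tow.GQ → X}
    (hb : (globalLevels S).IsLC₁ b) (L₀ : Level S) :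
    ∃ L : Level S, L₀ ≤ L ∧ (∀ g, ∀ u ∈ L.U, b (g * u) = b g) ∧
      ∀ g, ∀ u ∈ L.U, u • b g = b g := by
  classical
  obtain ⟨W, hW, hbW⟩ := hb
  obtain ⟨La, hLa⟩ := exists_level_le hW
  -- finitely many values
  haveI : Finite La.Gal := inferInstance
  haveI : Fintype La.Gal := Fintype.ofFinite _
  let T : Finset X := Finset.univ.image (fun x : La.Gal => b (Quotient.out x))
  obtain ⟨L, hL0, hL⟩ := exists_level_finset hX T (capSup S L₀ La)
  have hLa' : L.U ≤ La.U := Level.U_anti (le_trans (le_capSup_right S L₀ La) hL0)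
  have hval : ∀ g, b g = b (Quotient.out (QuotientGroup.mk g : La.Gal)) := by
    intro g
    obtain ⟨h, hh⟩ := QuotientGroup.mk_out_eq_mul La.U g
    rw [hh, hbW g h (hLa h.2)]
  refine ⟨L, le_trans (le_capSup_left S L₀ La) hL0, fun g u hu => hbW g u (hLa (hLa' hu)),
    fun g u hu => ?_⟩
  rw [hval g]
  exact hL _ (Finset.mem_image.2 ⟨_, Finset.mem_univ _, rfl⟩) u hu

end Fermat.Agent.S55.Cap
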