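import Fermat.Agent.S55.Cap.Chase

/-!
# S55 / A8 (CAP): induced modules of `G`-modules over `ℤ`   (helper303)

`IndM U X = (G ⧸ U →₀ X)` with the diagonal action `g • single x a = single (g • x) (g • a)`,
for an additive group `X` with a `DistribMulAction G X`.  (Type synonym: Mathlib's pointwise
action on `Finsupp` is NOT used.)  Functoriality in `X` (`IndM.map`), level change (`IndM.le`),
smoothness, `p`-divisibility and `p`-torsion.
-/

set_option autoImplicit false
set_option linter.unusedVariables false

noncomputable section

namespace Fermat.Agent.S55.Cap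

open Fermat.Agent.S55.PT

variable {G : Type} [Group G]

/-- `Ind_U X = (G ⧸ U →₀ X)` with the diagonal action. -/
def IndM (U : Subgroup G) (X : Type) [AddCommGroup X] : Type := (G ⧸ U) →₀ X

namespace IndM

variable (U : Subgroup G) {X Y Z : Type} [AddCommGroup X] [AddCommGroup Y] [AddCommGroup Z]

instance instAddCommGroup : AddCommGroup (IndM U X) :=
  inferInstanceAs (AddCommGroup ((G ⧸ U) →₀ X))

/-- the underlying finitely supported function -/
def toF : IndM U X →+ ((G ⧸ U) →₀ X) := AddMonoidHom.id _

/-- the element of `IndM U X` given by a finitely supported function -/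
def ofF : ((G ⧸ U) →₀ X) →+ IndM U X := AddMonoidHom.id _

@[simp] lemma toF_ofF (F : (G ⧸ U) →₀ X) : toF U (ofF U F) = F := rfl
@[simp] lemma ofF_toF (F : IndM U X) : ofF U (toF U F) = F := rfl

/-- `single x a` -/
def single (x : G ⧸ U) (a : X) : IndM U X := ofF U (Finsupp.single x a)

lemma single_add (x : G ⧸ U) (a b : X) : single U x (a + b) = single U x a + single U x b :=
  Finsupp.single_add x a b

lemma single_zero (x : G ⧸ U) : single U x (0 : X) = 0 := Finsupp.single_zero x

variable {U} in
@[elab_as_elim]
lemma induction_on {motive : IndM U X → Prop} (F : IndM U X) (h0 : motive 0)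
    (hadd : ∀ F F', motive F → motive F' → motive (F + F'))
    (hsingle : ∀ x a, motive (single U x a)) : motive F :=
  Finsupp.induction_linear (motive := fun F => motive (ofF U F)) (toF U F) h0 hadd hsingle

variable {U} in
/-- two additive maps out of `IndM U X` agreeing on `single`s are equal -/
lemma addHom_ext {φ ψ : IndM U X →+ Y} (h : ∀ x a, φ (single U x a) = ψ (single U x a)) :
    φ = ψ := by
  ext F
  induction F using induction_on with
  | h0 => rw [map_zero, map_zero]
  | hadd F F' hF hF' => rw [map_add, map_add, hF, hF']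
  | hsingle x a => exact h x a

/-! ### functoriality in the module -/

/-- `Ind_U φ` -/
def map (φ : X →+ Y) : IndM U X →+ IndM U Y :=
  (ofF U).comp ((Finsupp.mapRange.addMonoidHom φ).comp (toF U))

@[simp] lemma map_single (φ : X →+ Y) (x : G ⧸ U) (a : X) :
    map U φ (single U x a) = single U x (φ a) := by
  show ofF U (Finsupp.mapRange φ (map_zero φ) (Finsupp.single x a)) = ofF U (Finsupp.single x (φ a))
  rw [Finsupp.mapRange_single]

lemma map_apply (φ : X →+ Y) (F : IndM U X) (x : G ⧸ U) :
    toF U (map U φ F) x = φ (toF U F x) := rfl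

lemma map_injective (φ : X →+ Y) (hφ : Function.Injective φ) :
    Function.Injective (map U φ) := fun F F' h =>
  Finsupp.mapRange_injective φ (map_zero φ) hφ h

lemma map_comp (ψ : Y →+ Z) (φ : X →+ Y) (F : IndM U X) :
    map U (ψ.comp φ) F = map U ψ (map U φ F) := by
  have : map U (ψ.comp φ) = (map U ψ).comp (map U φ) := by
    apply addHom_ext
    intro x a
    rw [AddMonoidHom.comp_apply, map_single, map_single, map_single, AddMonoidHom.comp_apply]
  rw [this, AddMonoidHom.comp_apply]

/-! ### level change -/

variable {U} in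
/-- push-forward along a map of coset spaces -/
def dom {V : Subgroup G} (f : G ⧸ U → G ⧸ V) : IndM U X →+ IndM V X :=
  (ofF V).comp ((Finsupp.mapDomain.addMonoidHom f).comp (toF U))

variable {U} in
@[simp] lemma dom_single {V : Subgroup G} (f : G ⧸ U → G ⧸ V) (x : G ⧸ U) (a : X) :
    dom f (single U x a) = single V (f x) a := by
  show ofF V (Finsupp.mapDomain f (Finsupp.single x a)) = ofF V (Finsupp.single (f x) a)
  rw [Finsupp.mapDomain_single]

variable {U} in
/-- level change `Ind_U X → Ind_V X` for `U ≤ V` -/
def le {V : Subgroup G} (h : U ≤ V) : IndM U X →+ IndM V X :=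
  dom (Subgroup.quotientMapOfLE h)

variable {U} in
@[simp] lemma le_single {V : Subgroup G} (h : U ≤ V) (x : G ⧸ U) (a : X) :
    le h (single U x a) = single V (Subgroup.quotientMapOfLE h x) a :=
  dom_single _ x a

variable {U} in
lemma le_map {V : Subgroup G} (h : U ≤ V) (φ : X →+ Y) (F : IndM U X) :
    le h (map U φ F) = map V φ (le h F) := by
  have : (le h).comp (map U φ) = (map V φ).comp (le (X := X) h) := by
    apply addHom_ext
    intro x a
    rw [AddMonoidHom.comp_apply, AddMonoidHom.comp_apply, map_single, le_single, le_single,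
      map_single]
  exact DFunLike.congr_fun this F

/-! ### the diagonal action -/

section Action

variable [DistribMulAction G X] [DistribMulAction G Y]

/-- the action of `g`: `single x a ↦ single (g • x) (g • a)` -/
def act (g : G) : IndM U X →+ IndM U X :=
  (dom (fun x : G ⧸ U => g • x)).comp (map U (DistribSMul.toAddMonoidHom X g))

lemma act_single (g : G) (x : G ⧸ U) (a : X) :
    act U g (single U x a) = single U (g • x) (g • a) := by
  rw [act, AddMonoidHom.comp_apply, map_single, dom_single]
  rfl

instance instDistribMulAction : DistribMulAction G (IndM U X) where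
  smul g F := act U g F
  one_smul F := by
    show act U (1 : G) F = F
    have : act (X := X) U (1 : G) = AddMonoidHom.id _ := by
      apply addHom_ext
      intro x a
      rw [act_single, one_smul, one_smul, AddMonoidHom.id_apply]
    rw [this, AddMonoidHom.id_apply]
  mul_smul g h F := by
    show act U (g * h) F = act U g (act U h F)
    have : act (X := X) U (g * h) = (act U g).comp (act U h) := by
      apply addHom_ext
      intro x a
      rw [AddMonoidHom.comp_apply, act_single, act_single, act_single, mul_smul, mul_smul]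
    rw [this, AddMonoidHom.comp_apply]
  smul_zero g := map_zero (act U g)
  smul_add g F F' := map_add (act U g) F F'

lemma smul_def (g : G) (F : IndM U X) : g • F = act U g F := rfl

@[simp] lemma smul_single (g : G) (x : G ⧸ U) (a : X) :
    g • single U x a = single U (g • x) (g • a) := act_single U g x a

lemma map_smul' (φ : X →+ Y) (hφ : ∀ (g : G) (a : X), φ (g • a) = g • φ a) (g : G)
    (F : IndM U X) : map U φ (g • F) = g • map U φ F := by
  have : (map U φ).comp (act U g) = (act U g).comp (map U φ) := by
    apply addHom_ext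
    intro x a
    rw [AddMonoidHom.comp_apply, AddMonoidHom.comp_apply, act_single, map_single, map_single,
      act_single, hφ]
  exact DFunLike.congr_fun this F

variable {U} in
lemma le_smul {V : Subgroup G} (h : U ≤ V) (g : G) (F : IndM U X) :
    le h (g • F) = g • le h F := by
  have : (le h).comp (act U g) = (act V g).comp (le (X := X) h) := by
    apply addHom_ext
    intro x a
    rw [AddMonoidHom.comp_apply, AddMonoidHom.comp_apply, act_single, le_single, le_single,
      act_single]
    congr 1
    induction x using QuotientGroup.induction_on with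
    | H a => rfl
  exact DFunLike.congr_fun this F

/-- smoothness of `Ind_U X` for a normal level `U` and a smooth module `X` -/
lemma smooth (L : LevelSys G) (hU : U ∈ L.levels) [hUn : U.Normal]
    (hX : ∀ a : X, ∃ W ∈ L.levels, ∀ s ∈ W, s • a = a) (F : IndM U X) :
    ∃ W ∈ L.levels, ∀ s ∈ W, s • F = F := by
  induction F using induction_on with
  | h0 =>
    obtain ⟨W, hW⟩ := L.nonempty
    exact ⟨W, hW, fun s _ => smul_zero s⟩
  | hadd F F' hF hF' =>
    obtain ⟨W, hW, h⟩ := hF
    obtain ⟨W', hW', h'⟩ := hF'
    obtain ⟨W'', hW'', hle⟩ := L.directed W hW W' hW'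
    exact ⟨W'', hW'', fun s hs => by rw [smul_add, h s (hle hs).1, h' s (hle hs).2]⟩
  | hsingle x a =>
    obtain ⟨W, hW, h⟩ := hX a
    obtain ⟨W', hW', hle⟩ := L.directed U hU W hW
    refine ⟨W', hW', fun s hs => ?_⟩
    rw [smul_single, h s (hle hs).2]
    congr 1
    induction x using QuotientGroup.induction_on with
    | H g =>
      show ((s * g : G) : G ⧸ U) = (g : G ⧸ U)
      rw [QuotientGroup.eq]
      have : (s * g)⁻¹ * g = g⁻¹ * s⁻¹ * g := by group
      rw [this]
      have hs' : s⁻¹ ∈ U := U.inv_mem (hle hs).1
      have := hUn.conj_mem s⁻¹ hs' g⁻¹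
      simpa using this

end Action

/-! ### divisibility and torsion -/

lemma nsmul_apply (n : ℕ) (F : IndM U X) (x : G ⧸ U) : toF U (n • F) x = n • toF U F x := rfl

lemma exists_nsmul_eq (p : ℕ) (hdiv : ∀ a : X, ∃ b : X, p • b = a) (F : IndM U X) :
    ∃ F' : IndM U X, p • F' = F := by
  induction F using induction_on with
  | h0 => exact ⟨0, nsmul_zero p⟩
  | hadd F F' hF hF' =>
    obtain ⟨F₁, h₁⟩ := hF
    obtain ⟨F₂, h₂⟩ := hF'
    exact ⟨F₁ + F₂, by rw [nsmul_add, h₁, h₂]⟩
  | hsingle x a =>
    obtain ⟨b, hb⟩ := hdiv a
    refine ⟨single U x b, ?_⟩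
    rw [← hb]
    show ofF U (p • Finsupp.single x b) = ofF U (Finsupp.single x (p • b))
    rw [Finsupp.smul_single]

lemma exists_map_eq_of_nsmul_eq_zero (p : ℕ) (φ : X →+ Y)
    (hφ : ∀ y : Y, p • y = 0 → ∃ a : X, φ a = y) (F : IndM U Y) (hF : p • F = 0) :
    ∃ F' : IndM U X, map U φ F' = F := by
  classical
  have hF' : ∀ x, p • toF U F x = 0 := fun x => by
    rw [← nsmul_apply, hF]
    rfl
  choose s hs using fun x => hφ (toF U F x) (hF' x)
  refine ⟨ofF U (Finsupp.onFinset (toF U F).support (fun x => if toF U F x = 0 then 0 else s x)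
    (fun x hx => ?_)), ?_⟩
  · rw [Finsupp.mem_support_iff]
    intro h0
    exact hx (by rw [if_pos h0])
  · apply Finsupp.ext
    intro x
    show φ (if toF U F x = 0 then 0 else s x) = toF U F x
    split_ifs with h0
    · rw [map_zero, h0]
    · exact hs x

end IndM

end Fermat.Agent.S55.Cap
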