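import Fermat.Agent.S55.Cap.Spec
import Fermat.Agent.S55.Cap.J1H123
import Fermat.Agent.S55.Cap.H123.J2Core
import Fermat.Agent.S55.Cap.H123.J2Inf
import Fermat.Agent.S55.E1.H603.FiniteRamification

/-!
# S55 / A8 (CAP), leaf J2: `j2Adapter : J2AdapterSpec p S`   (helper123)

A level-constant 2-cocycle `c : G_ℚ² → Ind_U μ` which is locally a coboundary at all `q ∈ S`
becomes the coboundary of a level-constant 1-cochain in `Ind_U 𝕁`.

* `upgrade_cochain` (`Cap/H123/J2Inf.lean`): by Hilbert 90 the local trivialisations may be taken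
  right-invariant under `V_L(q)`, `L` an `S`-level carrying `c`;
* `coind_shapiro₂` (`Cap/H123/J2Core.lean`): explicit formula for the global cochain.
-/

set_option autoImplicit false
set_option linter.unusedSectionVars false
set_option linter.unusedVariables false
set_option linter.style.haveILetI false

noncomputable section

namespace Fermat.Agent.S55.Cap.H123

open Fermat.Agent.S55.PT Fermat.Agent.S55.Tow Fermat.Agent.S55.Cap groupCohomology

/-- the coefficients of the action of `indRep` -/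
lemma indRep_ρ_apply {k G : Type} [Field k] [Group G] (U : Subgroup G) (M : Rep.{0, 0, 0} k G)
    (g : G) (F : (G ⧸ U) →₀ M) (z : G ⧸ U) :
    ((indRep U M).ρ g F : (G ⧸ U) →₀ M) z = M.ρ g (F (g⁻¹ • z)) := by
  classical
  induction F using Finsupp.induction_linear with
  | zero =>
    rw [map_zero]
    show (0 : M) = M.ρ g 0
    rw [map_zero]
  | add F F' hF hF' =>
    rw [map_add]
    show ((indRep U M).ρ g F : (G ⧸ U) →₀ M) z + ((indRep U M).ρ g F' : (G ⧸ U) →₀ M) z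
      = M.ρ g (F (g⁻¹ • z) + F' (g⁻¹ • z))
    rw [hF, hF', map_add]
  | single x m =>
    rw [indRep_ρ_single, Finsupp.single_apply, Finsupp.single_apply]
    by_cases h : g • x = z
    · have h' : x = g⁻¹ • z := by rw [← h, inv_smul_smul]
      rw [if_pos h, if_pos h']
    · have h' : ¬ x = g⁻¹ • z := fun hx => h (by rw [hx, smul_inv_smul])
      rw [if_neg h, if_neg h', map_zero]

/-- the Galois action on `μ_p` -/
@[reducible] def muDMA123 (p : ℕ) [Fact p.Prime] : DistribMulAction Tow.GQ ↥(mu p) where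
  smul g a := (mu p).ρ g a
  one_smul a := by
    show (mu p).ρ 1 a = a
    rw [map_one, Module.End.one_apply]
  mul_smul g h a := by
    show (mu p).ρ (g * h) a = (mu p).ρ g ((mu p).ρ h a)
    rw [map_mul, Module.End.mul_apply]
  smul_zero g := map_zero ((mu p).ρ g)
  smul_add g a b := map_add ((mu p).ρ g) a b

variable (p : ℕ) [Fact p.Prime] (S : Finset Nat.Primes)

/-- a Galois level of a bigger tower above a level of the `S`-tower and a finite extension -/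
lemma exists_local_level (L : Level S) (F : IntermediateField ℚ Qbar)
    (hF : FiniteDimensional ℚ F) :
    ∃ (S' : Finset Nat.Primes) (hS : S ⊆ S') (N : Level S'),
      Level.ofLE hS L ≤ N ∧ N.U ≤ F.fixingSubgroup := by
  obtain ⟨S', hS, hFS'⟩ := Fermat.Agent.S55.E1.H603.exists_isUnramifiedOutside_ge S F hF
  obtain ⟨N₀, hN₀⟩ := exists_level_U_le S' F.fixingSubgroup ⟨F, hFS', rfl⟩
  exact ⟨S', hS, capSup S' (Level.ofLE hS L) N₀, le_capSup_left S' _ _,
    (Level.U_anti (le_capSup_right S' (Level.ofLE hS L) N₀)).trans hN₀⟩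

/-- the component at `q` -/
lemma j2_component (hL : LocalSpec p) (ι₀ : ↥(mu p) →+ SU S)
    (hι₀ : ∀ (g : Tow.GQ) (a : ↥(mu p)), ι₀ ((mu p).ρ g a) = g • ι₀ a)
    (L₁ L : Level S) (h1 : L₁ ≤ L)
    (c : Tow.GQ × Tow.GQ → (Tow.GQ ⧸ L₁.U) →₀ ↥(mu p))
    (hcoc : ∀ g h j : Tow.GQ,
      c (g * h, j) + c (g, h) = (indRep L₁.U (mu p)).ρ g (c (h, j)) + c (g, h * j))
    (hinv : ∀ g g' s s' : Tow.GQ, s ∈ L.U → s' ∈ L.U → c (g * s, g' * s') = c (g, g'))
    (q : Nat.Primes)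
    (β : GQp q → (Tow.GQ ⧸ L₁.U) →₀ ↥(mu p))
    (hβLC : (localLevels q).IsLC₁ β)
    (hβ : ∀ d d' : GQp q, c (locQ q d, locQ q d')
      = (indRep L₁.U (mu p)).ρ (locQ q d) (β d') - β (d * d') + β d) :
    ∃ bb : Tow.GQ → (Tow.GQ ⧸ L₁.U) → Tow.GQ → (unitsQpbar q).V,
      (∀ (g : Tow.GQ) (y : Tow.GQ ⧸ L₁.U) (d : GQp q) (γ : Tow.GQ),
        bb g y (locQ q d * γ) = (unitsQpbar q).ρ d (bb g y γ)) ∧
      (∀ (g : Tow.GQ) (y : Tow.GQ ⧸ L₁.U) (γ w : Tow.GQ), w ∈ L.U →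
        bb g y (γ * w) = bb g y γ) ∧
      (∀ (g : Tow.GQ) (y : Tow.GQ ⧸ L₁.U) (γ w : Tow.GQ), w ∈ L.U →
        bb (g * w) y γ = bb g y γ) ∧
      (∀ (g h : Tow.GQ) (y : Tow.GQ ⧸ L₁.U) (γ : Tow.GQ),
        embQbar q (unitsQbar.ρ γ (SU.val S (ι₀ (c (g, h) y))))
          = bb h (g⁻¹ • y) (γ * g) - bb (g * h) y γ + bb g y γ) := by
  classical
  letI : DistribMulAction (GQp q) (unitsQpbar q).V := locDMA q
  letI : DistribMulAction Tow.GQ ↥(mu p) := muDMA123 p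
  -- the equivariant map `μ_p → ℚ̄_qˣ`
  let e : ↥(mu p) →+ (unitsQpbar q).V :=
    ((embQbar q).toAddMonoidHom.comp (SU.val S)).comp ι₀
  have he : ∀ (d : GQp q) (a : ↥(mu p)), e (locQ q d • a) = d • e a := by
    intro d a
    show embQbar q (SU.val S (ι₀ ((mu p).ρ (locQ q d) a)))
      = (unitsQpbar q).ρ d (embQbar q (SU.val S (ι₀ a)))
    rw [hι₀, SU.val_smul, embQbar_equivariant]
  have heγ : ∀ (γ : Tow.GQ) (a : ↥(mu p)),
      e (γ • a) = embQbar q (unitsQbar.ρ γ (SU.val S (ι₀ a))) := by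
    intro γ a
    show embQbar q (SU.val S (ι₀ ((mu p).ρ γ a))) = _
    rw [hι₀, SU.val_smul]
  have hWZ : ∀ w ∈ L.U, ∀ z : Tow.GQ ⧸ L₁.U, w • z = z := by
    intro w hw z
    induction z using QuotientGroup.induction_on with
    | H g =>
      show (QuotientGroup.mk (w * g) : Tow.GQ ⧸ L₁.U) = QuotientGroup.mk g
      rw [QuotientGroup.eq]
      have h2 : (w * g)⁻¹ * g = g⁻¹ * w⁻¹ * g := by group
      rw [h2]
      exact Level.conj_mem_U' S L₁ (L₁.U.inv_mem (Level.U_anti h1 hw)) g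
  -- the coefficient cocycle
  have hcoc' : ∀ (g h j : Tow.GQ) (z : Tow.GQ ⧸ L₁.U),
      g • c (h, j) (g⁻¹ • z) - c (g * h, j) z + c (g, h * j) z - c (g, h) z = 0 := by
    intro g h j z
    have h0 := congrArg (fun F : (Tow.GQ ⧸ L₁.U) →₀ ↥(mu p) => F z) (hcoc g h j)
    have h0' : c (g * h, j) z + c (g, h) z
        = (mu p).ρ g (c (h, j) (g⁻¹ • z)) + c (g, h * j) z := by
      rw [← indRep_ρ_apply]
      exact h0
    show (mu p).ρ g (c (h, j) (g⁻¹ • z)) - c (g * h, j) z + c (g, h * j) z - c (g, h) z = 0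
    have key : (mu p).ρ g (c (h, j) (g⁻¹ • z)) - c (g * h, j) z + c (g, h * j) z - c (g, h) z
        = ((mu p).ρ g (c (h, j) (g⁻¹ • z)) + c (g, h * j) z)
          - (c (g * h, j) z + c (g, h) z) := by abel
    rw [key, h0', sub_self]
  have hinv' : ∀ (g h w w' : Tow.GQ) (z : Tow.GQ ⧸ L₁.U), w ∈ L.U → w' ∈ L.U →
      c (g * w, h * w') z = c (g, h) z := by
    intro g h w w' z hw hw'
    rw [hinv g h w w' hw hw']
  -- the local level
  obtain ⟨V, ⟨F, hF, rfl⟩, hβinv⟩ := hβLC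
  obtain ⟨S', hS, N, hLN, hNF⟩ := exists_local_level S L F hF
  -- the local trivialisation, pushed to `ℚ̄_qˣ`
  have hB1 : ∀ (d d' : GQp q) (z : Tow.GQ ⧸ L₁.U),
      e (c (locQ q d, locQ q d') z)
        = d • e (β d' ((locQ q d)⁻¹ • z)) - e (β (d * d') z) + e (β d z) := by
    intro d d' z
    have h0 := congrArg (fun F : (Tow.GQ ⧸ L₁.U) →₀ ↥(mu p) => F z) (hβ d d')
    have h0' : c (locQ q d, locQ q d') z
        = (mu p).ρ (locQ q d) (β d' ((locQ q d)⁻¹ • z)) - β (d * d') z + β d z := by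
      rw [← indRep_ρ_apply]
      exact h0
    rw [h0', map_add, map_sub, ← he]
    rfl
  have hB2 : ∀ (d v : GQp q) (z : Tow.GQ ⧸ L₁.U), v ∈ N.V q →
      e (β (d * v) z) = e (β d z) := by
    intro d v z hv
    rw [hβinv d v (hNF hv)]
  obtain ⟨β', hβ1, hβ2⟩ := upgrade_cochain (locQ q) L.U e (N.V q) he hWZ
    (fun g h z => c (g, h) z) hcoc' hinv' (fun d z => e (β d z)) hB1 hB2
    (fun θ hθ1 hθ2 => h90_of_localSpec p hL (Level.ofLE hS L) N hLN q θ hθ1 hθ2)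
  obtain ⟨bb, hbb1, hbb2, hbb3, hbb4⟩ := coind_shapiro₂ (locQ q) L.U e he hWZ
    (fun g h z => c (g, h) z) hcoc' hinv' β' hβ1 hβ2
  refine ⟨bb, hbb1, hbb2, hbb3, fun g h y γ => ?_⟩
  rw [← heγ]
  exact hbb4 g h y γ

/-- **leaf J2.** -/
theorem j2Adapter : J2AdapterSpec p S := by
  classical
  intro hL ι₀ hι₀ L₁ hL₁μ c hc
  have hcoc := (mem_cocycles₂_iff (A := indRep L₁.U (mu p)) _).1 c.2.1
  obtain ⟨Ua, hUa, hinv⟩ := c.2.2
  obtain ⟨La, hLa⟩ := exists_level_U_le S Ua hUa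
  have h1 : L₁ ≤ capSup S L₁ La := le_capSup_left S L₁ La
  have ha : (capSup S L₁ La).U ≤ Ua := (Level.U_anti (le_capSup_right S L₁ La)).trans hLa
  -- the local trivialisations
  have hloc : ∀ q : ↥S, ∃ β : GQp q.1 → (Tow.GQ ⧸ L₁.U) →₀ ↥(mu p),
      (localLevels q.1).IsLC₁ β ∧
      ∀ d d' : GQp q.1, (c : Tow.GQ × Tow.GQ → (Tow.GQ ⧸ L₁.U) →₀ ↥(mu p))
          (locQ q.1 d, locQ q.1 d')
        = (indRep L₁.U (mu p)).ρ (locQ q.1 d) (β d') - β (d * d') + β d := by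
    intro q
    have h0 : loc2 (hrl S) (indRep L₁.U (mu p))
        ((globalLevels S).H2π (indRep L₁.U (mu p)) c) = 0 := hc
    have h2 := congrFun h0 q
    rw [loc2_apply, resH2_mk] at h2
    have h3 := (LevelSys.H2π_eq_zero_iff _ _ _).1 h2
    obtain ⟨β, hβC, hβd⟩ := h3
    refine ⟨β, hβC, fun d d' => ?_⟩
    have h4 := congrFun hβd (d, d')
    rw [d₁₂_hom_apply] at h4
    exact h4.symm
  choose β hβLC hβ using hloc
  choose bb hbb1 hbb2 hbb3 hbb4 using fun q : ↥S =>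
    j2_component p S hL ι₀ hι₀ L₁ (capSup S L₁ La) h1
      (c : Tow.GQ × Tow.GQ → (Tow.GQ ⧸ L₁.U) →₀ ↥(mu p)) hcoc
      (fun g g' s s' hs hs' => hinv g g' s s' (ha hs) (ha hs')) q.1 (β q) (hβLC q) (hβ q)
  haveI : Finite (Tow.GQ ⧸ L₁.U) := Level.finiteGal L₁
  let bJ : Tow.GQ → (Tow.GQ ⧸ L₁.U) → JJS S := fun g y q =>
    JJ.mk S q.1 (fun γ => bb q g y γ) (fun d γ => hbb1 q g y d γ)
      ⟨capSup S L₁ La, fun u hu γ => hbb2 q g y γ u hu⟩
  have hbJ : ∀ (g : Tow.GQ) (y : Tow.GQ ⧸ L₁.U),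
      IndM.toF L₁.U (IndM.ofF L₁.U (Finsupp.equivFunOnFinite.symm (bJ g))) y = bJ g y :=
    fun g y => rfl
  refine ⟨fun g => IndM.ofF L₁.U (Finsupp.equivFunOnFinite.symm (bJ g)),
    ⟨(capSup S L₁ La).U, Level.U_mem_globalLevels S _, fun g s hs => ?_⟩, fun g h => ?_⟩
  · apply indM_ext
    intro y
    rw [hbJ, hbJ]
    apply JJS.ext
    intro q
    apply JJ.ext
    intro γ
    exact hbb3 q g y γ s hs
  · apply indM_ext
    intro y
    rw [toF_add_apply, toF_sub_apply, toF_smul_apply, hbJ, hbJ, hbJ, IndM.map_apply,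
      IndM.map_apply]
    apply JJS.ext
    intro q
    apply JJ.ext
    intro γ
    rw [map_add, map_sub, map_add, map_sub, JJS.proj_smul, JJ.ev_smul, proj_iEJ, ev_iEJq]
    exact hbb4 q g h y γ

end Fermat.Agent.S55.Cap.H123
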