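import Fermat.Agent.S55.Cap.Spec

/-!
# S55 / layer K, input A8 (CAP): `CapSpec` from the leaves   (helper303)

`capSpec_of_leaves : MuSpec → HasMuSpec → EDivSpec → J1Spec → J2Spec → C1Spec → C2Spec → CapSpec`.
Proof: the abstract chase `Cap.chase` applied to the rows
`Ind_U μ → Ind_U 𝔼 → Ind_U 𝕁` and `Ind_V μ → Ind_V 𝔼 → Ind_V 𝕁`.
-/

set_option autoImplicit false
set_option linter.unusedVariables false
set_option linter.unusedSectionVars false
set_option linter.style.haveILetI false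

noncomputable section

namespace Fermat.Agent.S55.Cap

open Fermat.Agent.S55.PT Fermat.Agent.S55.Tow groupCohomology ExtCitation

/-- the `G`-action on the carrier of a representation -/
@[reducible] def repDMA {k G : Type} [CommRing k] [Group G] (A : Rep.{0, 0, 0} k G) :
    DistribMulAction G ↥A where
  smul g a := A.ρ g a
  one_smul a := by
    show A.ρ 1 a = a
    rw [map_one, Module.End.one_apply]
  mul_smul g h a := by
    show A.ρ (g * h) a = A.ρ g (A.ρ h a)
    rw [map_mul, Module.End.mul_apply]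
  smul_zero g := map_zero (A.ρ g)
  smul_add g a b := map_add (A.ρ g) a b

section

variable {k G : Type} [Field k] [Group G] (A : Rep.{0, 0, 0} k G) (U : Subgroup G)

attribute [local instance] repDMA

lemma repDMA_smul (g : G) (a : ↥A) : g • a = A.ρ g a := rfl

/-- the action of `indRep U A` is the diagonal action of `IndM U A` -/
lemma indRep_ρ_eq_smul (g : G) (F : (G ⧸ U) →₀ ↥A) :
    (indRep U A).ρ g F = IndM.toF U (g • IndM.ofF U F) := by
  induction F using Finsupp.induction_linear with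
  | zero =>
    rw [map_zero, map_zero, smul_zero, map_zero]
  | add F F' hF hF' =>
    rw [map_add, map_add, smul_add, map_add, hF, hF']
  | single x a =>
    rw [indRep_ρ_single]
    show _ = IndM.toF U (g • IndM.single U x a)
    rw [IndM.smul_single]
    rfl

lemma indLE_eq_le {V : Subgroup G} (h : U ≤ V) (F : (G ⧸ U) →₀ ↥A) :
    indLE A h F = IndM.toF V (IndM.le h (IndM.ofF U F)) := rfl

lemma nsmul_eq_zero_of_zmod (p : ℕ) [Fact p.Prime] (B : Rep.{0, 0, 0} (ZMod p) G)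
    (F : IndM U ↥B) : p • F = 0 := by
  apply Finsupp.ext
  intro x
  show p • (IndM.toF U F x) = 0
  have h := Nat.cast_smul_eq_nsmul (ZMod p) p (IndM.toF U F x)
  rw [← h, ZMod.natCast_self, zero_smul]

end

variable (p : ℕ) [Fact p.Prime] (S : Finset Nat.Primes)

/-- the Galois action on `μ = ofChar (cycloChar p)` -/
@[reducible] def muDMA : DistribMulAction Tow.GQ ↥(mu p) := repDMA (mu p)

attribute [local instance] muDMA

/-- smoothness in the `LevelSys` form -/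
lemma smooth_of_level {X : Type} [AddCommGroup X] [DistribMulAction Tow.GQ X]
    (h : ∀ a : X, ∃ L : Level S, ∀ u ∈ L.U, u • a = a) (a : X) :
    ∃ W ∈ (globalLevels S).levels, ∀ s ∈ W, s • a = a := by
  obtain ⟨L, hL⟩ := h a
  exact ⟨L.U, Level.U_mem_globalLevels S L, hL⟩

/-- **A8 from the leaves.** -/
theorem capSpec_of_leaves (hpS : pPrime p ∈ S) (hMu : MuSpec p S) (hHas : HasMuSpec p S)
    (hE : EDivSpec p S) (hJ1 : J1Spec S) (hJ2 : J2Spec p S) (hC1 : C1Spec p S)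
    (hC2 : C2Spec p S) : CapSpec p S := by
  intro V hV hVn hVμ
  obtain ⟨F₀, hF₀, rfl⟩ := hV
  let L₀ : Level S := ⟨F₀, hF₀, hVn⟩
  obtain ⟨L₁, h01, hC2'⟩ := hC2 L₀ (hHas L₀ hVμ)
  haveI : (L₁.U).Normal := L₁.normalU
  haveI : (L₀.U).Normal := L₀.normalU
  refine ⟨L₁.U, Level.U_anti h01, Level.U_mem_globalLevels S L₁, L₁.normalU, ?_⟩
  intro x hx
  obtain ⟨c, rfl⟩ := (globalLevels S).H2π_surjective _ x
  rw [pushH2_mk, LevelSys.H2π_eq_zero_iff]
  obtain ⟨ι₀, hι₀inj, hι₀eq, hι₀tors⟩ := hMu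
  obtain ⟨b, hb, hcb⟩ := hJ2 ι₀ hι₀eq L₁ (fun s hs => hVμ s (Level.U_anti h01 hs)) c hx
  have hSne : S.Nonempty := ⟨_, hpS⟩
  have hp : p.Prime := Fact.out
  obtain ⟨β, hβ, hcβ⟩ := chase (globalLevels S)
    (M := IndM L₁.U ↥(mu p)) (E := IndM L₁.U (SU S)) (J := IndM L₁.U (JJS S))
    (M' := IndM L₀.U ↥(mu p)) (E' := IndM L₀.U (SU S)) (J' := IndM L₀.U (JJS S)) p hp
    (IndM.map L₁.U ι₀) (IndM.map L₁.U (iEJ S)) (IndM.map L₀.U ι₀) (IndM.map L₀.U (iEJ S))
    (IndM.le (Level.U_anti h01)) (IndM.le (Level.U_anti h01)) (IndM.le (Level.U_anti h01))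
    (IndM.map_smul' L₁.U (iEJ S) (iEJ_smul S))
    (IndM.map_smul' L₀.U ι₀ hι₀eq)
    (IndM.map_smul' L₀.U (iEJ S) (iEJ_smul S))
    (IndM.le_smul (Level.U_anti h01))
    (IndM.le_smul (Level.U_anti h01))
    (fun m => IndM.le_map (Level.U_anti h01) ι₀ m)
    (fun e => IndM.le_map (Level.U_anti h01) (iEJ S) e)
    (IndM.map_injective L₁.U (iEJ S) (iEJ_injective S hSne))
    (IndM.map_injective L₀.U (iEJ S) (iEJ_injective S hSne))
    (IndM.map_injective L₀.U ι₀ hι₀inj)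
    (nsmul_eq_zero_of_zmod L₁.U p (mu p))
    (nsmul_eq_zero_of_zmod L₀.U p (mu p))
    (fun e he => IndM.exists_map_eq_of_nsmul_eq_zero L₀.U p ι₀ hι₀tors e he)
    (IndM.exists_nsmul_eq L₀.U p hE)
    (IndM.smooth L₁.U (globalLevels S) (Level.U_mem_globalLevels S L₁)
      (smooth_of_level S (JJS.smooth S)))
    (IndM.smooth L₀.U (globalLevels S) (Level.U_mem_globalLevels S L₀)
      (smooth_of_level S (JJS.smooth S)))
    (IndM.smooth L₀.U (globalLevels S) (Level.U_mem_globalLevels S L₀)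
      (smooth_of_level S (SU.smooth S)))
    (fun u hu hcoc => by
      refine hJ1 L₁ (fun g => IndM.map L₁.U (iEJ S) (u g))
        (isLC₁_map (globalLevels S) (IndM.map L₁.U (iEJ S)) hu) (fun g h => ?_)
      show IndM.map L₁.U (iEJ S) (u (g * h)) = _
      rw [hcoc, map_add, IndM.map_smul' L₁.U (iEJ S) (iEJ_smul S)])
    (hC1 L₁) hC2'
    (fun gh => IndM.ofF L₁.U ((c : Tow.GQ × Tow.GQ → (Tow.GQ ⧸ L₁.U) →₀ ↥(mu p)) gh))
    b hb hcb
  refine ⟨fun g => IndM.toF L₀.U (β g), ?_, ?_⟩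
  · exact isLC₁_map (globalLevels S) (IndM.toF L₀.U) hβ
  · funext ⟨g, h⟩
    show (indRep L₀.U (mu p)).ρ g (IndM.toF L₀.U (β h)) - IndM.toF L₀.U (β (g * h))
      + IndM.toF L₀.U (β g) = indLE (mu p) (Level.U_anti h01)
        ((c : Tow.GQ × Tow.GQ → (Tow.GQ ⧸ L₁.U) →₀ ↥(mu p)) (g, h))
    rw [indRep_ρ_eq_smul, indLE_eq_le, hcβ g h, map_add, map_sub]
    rfl

end Fermat.Agent.S55.Cap
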