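import Fermat.Agent.S55.Cap.IndM
import Fermat.Agent.S55.Spec.Datum2

/-!
# S55 / A8 (CAP): the big Galois modules `𝔼 ⊂ 𝕁`   (helper303)

* `SU S`  (`𝔼`) : the smooth `S`-units of `ℚ̄`, i.e. the `S`-units of the maximal extension
  `ℚ_S` of `ℚ` unramified outside `S`;  `= colim_L {e ∈ L.units | L.IsSUnit e}`;
* `JJ S q` (`𝕁_q`) : the smooth coinduction of `ℚ̄_qˣ` from the Prelude local group at `q`:
  functions `f : G_ℚ → ℚ̄_qˣ` with `f (d g) = d f(g)` (`d` local) which are right-invariant under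
  some level `U_L`; `G_ℚ` acts by right translation;  `= colim_L (L.J q)`;
* `JJS S = ∏_{q ∈ S} 𝕁_q`  (`𝕁`);
* `iEJ S : 𝔼 → 𝕁`, the diagonal embedding `x ↦ (g ↦ emb_q (g x))_q`.

All are `G_ℚ`-modules (`AddCommGroup` + `DistribMulAction`), smooth for the tower `Tow.Level S`.
-/

set_option autoImplicit false
set_option linter.unusedVariables false
set_option linter.unusedSectionVars false
set_option linter.style.haveILetI false

noncomputable section

namespace Fermat.Agent.S55.Cap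

open Fermat.Agent.S55.PT Fermat.Agent.S55.Tow

variable (S : Finset Nat.Primes)

/-! ### levels -/

/-- the compositum of two levels -/
def capSup (L L' : Level S) : Level S where
  F := L.F ⊔ L'.F
  unram := L.unram.sup L'.unram
  normalU := by
    rw [IntermediateField.fixingSubgroup_sup]
    haveI := L.normalU
    haveI := L'.normalU
    infer_instance

lemma le_capSup_left (L L' : Level S) : L ≤ capSup S L L' :=
  (le_sup_left : L.F ≤ L.F ⊔ L'.F)

lemma le_capSup_right (L L' : Level S) : L' ≤ capSup S L L' :=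
  (le_sup_right : L'.F ≤ L.F ⊔ L'.F)

/-- the bottom level `ℚ` -/
def capBot : Level S where
  F := ⊥
  unram := IntermediateField.isUnramifiedOutside_bot S
  normalU := by
    have : (⊥ : IntermediateField ℚ Qbar).fixingSubgroup = ⊤ := by
      ext g
      simp only [Subgroup.mem_top, iff_true]
      rw [IntermediateField.mem_fixingSubgroup_iff]
      intro x hx
      obtain ⟨r, rfl⟩ := IntermediateField.mem_bot.1 hx
      exact g.commutes r
    rw [this]
    infer_instance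

lemma Level.U_mem_globalLevels (L : Level S) : L.U ∈ (globalLevels S).levels :=
  ⟨L.F, L.unram, rfl⟩

lemma Level.conj_mem_U (L : Level S) {u : Tow.GQ} (hu : u ∈ L.U) (g : Tow.GQ) : g * u * g⁻¹ ∈ L.U :=
  L.normalU.conj_mem u hu g

lemma Level.conj_mem_U' (L : Level S) {u : Tow.GQ} (hu : u ∈ L.U) (g : Tow.GQ) : g⁻¹ * u * g ∈ L.U := by
  have := L.normalU.conj_mem u hu g⁻¹
  rwa [inv_inv] at this

/-! ### `𝔼` -/

/-- `x ∈ ℚ̄ˣ` is a unit at all places outside `S` -/
def IsSUq (x : unitsQbar.V) : Prop :=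
  ∀ ℓ : Nat.Primes, ℓ ∉ S → ∀ A : ValuationSubring Qbar, A.LiesOverPrime (ℓ : ℕ) →
    ((Additive.toMul x : Qbarˣ) : Qbar) ∈ A ∧ (((Additive.toMul x)⁻¹ : Qbarˣ) : Qbar) ∈ A

lemma isSUq_iff (L : Level S) (e : L.units.V) : L.IsSUnit e ↔ IsSUq S (L.unitsCoe e) := Iff.rfl

lemma toMul_add' (x y : unitsQbar.V) :
    (Additive.toMul (x + y) : Qbarˣ) = (Additive.toMul x : Qbarˣ) * (Additive.toMul y : Qbarˣ) :=
  rfl

lemma toMul_neg' (x : unitsQbar.V) :
    (Additive.toMul (-x) : Qbarˣ) = (Additive.toMul x : Qbarˣ)⁻¹ := rfl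

lemma toMul_zero' : (Additive.toMul (0 : unitsQbar.V) : Qbarˣ) = 1 := rfl

lemma toMul_ρ (g : Tow.GQ) (x : unitsQbar.V) :
    ((Additive.toMul (unitsQbar.ρ g x) : Qbarˣ) : Qbar) = g ((Additive.toMul x : Qbarˣ) : Qbar) :=
  rfl

lemma toMul_ρ_inv (g : Tow.GQ) (x : unitsQbar.V) :
    (((Additive.toMul (unitsQbar.ρ g x))⁻¹ : Qbarˣ) : Qbar)
      = g (((Additive.toMul x)⁻¹ : Qbarˣ) : Qbar) := by
  rw [Units.val_inv_eq_inv_val, Units.val_inv_eq_inv_val, toMul_ρ, map_inv₀]

/-- the transport of a valuation subring by an automorphism lies over the same prime -/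
lemma liesOverPrime_comap (A : ValuationSubring Qbar) (g : Tow.GQ) (ℓ : ℕ)
    (hA : A.LiesOverPrime ℓ) :
    (A.comap ((g : Qbar ≃ₐ[ℚ] Qbar) : Qbar →+* Qbar)).LiesOverPrime ℓ := by
  unfold ValuationSubring.LiesOverPrime at hA ⊢
  rw [ValuationSubring.mem_nonunits_iff_or] at hA ⊢
  rcases hA with h0 | h
  · exact Or.inl h0
  · right
    intro hmem
    apply h
    rw [ValuationSubring.mem_comap] at hmem
    have : ((g : Qbar ≃ₐ[ℚ] Qbar) : Qbar →+* Qbar) ((ℓ : Qbar)⁻¹) = (ℓ : Qbar)⁻¹ := by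
      rw [map_inv₀, map_natCast]
    rwa [this] at hmem

lemma isSUq_ρ (g : Tow.GQ) {x : unitsQbar.V} (hx : IsSUq S x) : IsSUq S (unitsQbar.ρ g x) := by
  intro ℓ hℓ A hA
  obtain ⟨h1, h2⟩ := hx ℓ hℓ _ (liesOverPrime_comap A g ℓ hA)
  rw [ValuationSubring.mem_comap] at h1 h2
  exact ⟨by rw [toMul_ρ]; exact h1, by rw [toMul_ρ_inv]; exact h2⟩

/-- the smooth `S`-units, as a subgroup of `ℚ̄ˣ` -/
def SUsub : AddSubgroup unitsQbar.V where
  carrier := {x | IsSUq S x ∧ ∃ L : Level S, ∀ g ∈ L.U, unitsQbar.ρ g x = x}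
  zero_mem' := by
    refine ⟨fun ℓ hℓ A hA => ?_, capBot S, fun g hg => map_zero _⟩
    rw [toMul_zero']
    exact ⟨A.one_mem, by rw [inv_one]; exact A.one_mem⟩
  add_mem' := by
    rintro x y ⟨hx, L, hL⟩ ⟨hy, L', hL'⟩
    refine ⟨fun ℓ hℓ A hA => ?_, capSup S L L', fun g hg => ?_⟩
    · obtain ⟨h1, h2⟩ := hx ℓ hℓ A hA
      obtain ⟨h3, h4⟩ := hy ℓ hℓ A hA
      rw [toMul_add']
      constructor
      · rw [Units.val_mul]
        exact A.mul_mem _ _ h1 h3
      · rw [mul_inv, Units.val_mul]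
        exact A.mul_mem _ _ h2 h4
    · rw [map_add, hL g (Level.U_anti (le_capSup_left S L L') hg),
        hL' g (Level.U_anti (le_capSup_right S L L') hg)]
  neg_mem' := by
    rintro x ⟨hx, L, hL⟩
    refine ⟨fun ℓ hℓ A hA => ?_, L, fun g hg => ?_⟩
    · obtain ⟨h1, h2⟩ := hx ℓ hℓ A hA
      rw [toMul_neg']
      exact ⟨h2, by rw [inv_inv]; exact h1⟩
    · rw [map_neg, hL g hg]

/-- `𝔼` : the smooth `S`-units -/
def SU : Type := ↥(SUsub S)

instance SU.instAddCommGroup : AddCommGroup (SU S) :=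
  inferInstanceAs (AddCommGroup ↥(SUsub S))

/-- the underlying element of `ℚ̄ˣ` -/
def SU.val : SU S →+ unitsQbar.V := (SUsub S).subtype

lemma SU.val_injective : Function.Injective (SU.val S) := Subtype.val_injective

lemma SU.isSUq (x : SU S) : IsSUq S (SU.val S x) := x.2.1

lemma SU.exists_level (x : SU S) : ∃ L : Level S, ∀ g ∈ L.U, unitsQbar.ρ g (SU.val S x) = SU.val S x :=
  x.2.2

lemma SU.ext {x y : SU S} (h : SU.val S x = SU.val S y) : x = y := SU.val_injective S h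

/-- constructor for elements of `𝔼` -/
def SU.mk (x : unitsQbar.V) (hx : IsSUq S x)
    (hsm : ∃ L : Level S, ∀ g ∈ L.U, unitsQbar.ρ g x = x) : SU S := ⟨x, hx, hsm⟩

@[simp] lemma SU.val_mk (x : unitsQbar.V) (hx) (hsm) : SU.val S (SU.mk S x hx hsm) = x := rfl

lemma ρ_comm_of_fixed (L : Level S) (g : Tow.GQ) {x : unitsQbar.V}
    (hx : ∀ u ∈ L.U, unitsQbar.ρ u x = x) : ∀ u ∈ L.U, unitsQbar.ρ u (unitsQbar.ρ g x) = unitsQbar.ρ g x := by
  intro u hu
  have h1 : u * g = g * (g⁻¹ * u * g) := by group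
  rw [← Module.End.mul_apply, ← map_mul, h1, map_mul, Module.End.mul_apply,
    hx _ (Level.conj_mem_U' S L hu g)]

instance SU.instDistribMulAction : DistribMulAction Tow.GQ (SU S) where
  smul g x := SU.mk S (unitsQbar.ρ g (SU.val S x)) (isSUq_ρ S g (SU.isSUq S x)) (by
    obtain ⟨L, hL⟩ := SU.exists_level S x
    exact ⟨L, ρ_comm_of_fixed S L g hL⟩)
  one_smul x := by
    apply SU.ext
    show unitsQbar.ρ 1 (SU.val S x) = SU.val S x
    rw [map_one, Module.End.one_apply]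
  mul_smul g h x := by
    apply SU.ext
    show unitsQbar.ρ (g * h) (SU.val S x) = unitsQbar.ρ g (unitsQbar.ρ h (SU.val S x))
    rw [map_mul, Module.End.mul_apply]
  smul_zero g := by
    apply SU.ext
    show unitsQbar.ρ g (SU.val S 0) = SU.val S 0
    rw [map_zero, map_zero]
  smul_add g x y := by
    apply SU.ext
    show unitsQbar.ρ g (SU.val S (x + y)) = unitsQbar.ρ g (SU.val S x) + unitsQbar.ρ g (SU.val S y)
    rw [map_add, map_add]

@[simp] lemma SU.val_smul (g : Tow.GQ) (x : SU S) :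
    SU.val S (g • x) = unitsQbar.ρ g (SU.val S x) := rfl

/-- `𝔼` is smooth for the tower -/
lemma SU.smooth (x : SU S) : ∃ L : Level S, ∀ g ∈ L.U, g • x = x := by
  obtain ⟨L, hL⟩ := SU.exists_level S x
  exact ⟨L, fun g hg => SU.ext S (hL g hg)⟩

/-! ### `𝕁` -/

/-- the smooth coinduction of `ℚ̄_qˣ`, as a subgroup of the group of all functions -/
def JJsub (q : Nat.Primes) : AddSubgroup (Tow.GQ → (unitsQpbar q).V) where
  carrier := {f | (∀ (d : GQp q) (g : Tow.GQ), f (locQ q d * g) = (unitsQpbar q).ρ d (f g)) ∧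
    ∃ L : Level S, ∀ u ∈ L.U, ∀ g : Tow.GQ, f (g * u) = f g}
  zero_mem' := ⟨fun d g => (map_zero _).symm, capBot S, fun u hu g => rfl⟩
  add_mem' := by
    rintro f f' ⟨hf, L, hL⟩ ⟨hf', L', hL'⟩
    refine ⟨fun d g => ?_, capSup S L L', fun u hu g => ?_⟩
    · show f (locQ q d * g) + f' (locQ q d * g) = (unitsQpbar q).ρ d (f g + f' g)
      rw [hf, hf', map_add]
    · show f (g * u) + f' (g * u) = f g + f' g
      rw [hL u (Level.U_anti (le_capSup_left S L L') hu),
        hL' u (Level.U_anti (le_capSup_right S L L') hu)]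
  neg_mem' := by
    rintro f ⟨hf, L, hL⟩
    refine ⟨fun d g => ?_, L, fun u hu g => ?_⟩
    · show -f (locQ q d * g) = (unitsQpbar q).ρ d (-f g)
      rw [hf, map_neg]
    · show -f (g * u) = -f g
      rw [hL u hu]

/-- `𝕁_q` -/
def JJ (q : Nat.Primes) : Type := ↥(JJsub S q)

instance JJ.instAddCommGroup (q : Nat.Primes) : AddCommGroup (JJ S q) :=
  inferInstanceAs (AddCommGroup ↥(JJsub S q))

/-- the underlying function -/
def JJ.val (q : Nat.Primes) : JJ S q →+ (Tow.GQ → (unitsQpbar q).V) := (JJsub S q).subtype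

/-- evaluation at `g` -/
def JJ.ev (q : Nat.Primes) (g : Tow.GQ) : JJ S q →+ (unitsQpbar q).V :=
  (Pi.evalAddMonoidHom _ g).comp (JJ.val S q)

lemma JJ.ext {q : Nat.Primes} {f f' : JJ S q} (h : ∀ g, JJ.ev S q g f = JJ.ev S q g f') : f = f' :=
  Subtype.ext (funext h)

lemma JJ.ev_mul_left (q : Nat.Primes) (f : JJ S q) (d : GQp q) (g : Tow.GQ) :
    JJ.ev S q (locQ q d * g) f = (unitsQpbar q).ρ d (JJ.ev S q g f) := f.2.1 d g

lemma JJ.exists_level (q : Nat.Primes) (f : JJ S q) :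
    ∃ L : Level S, ∀ u ∈ L.U, ∀ g : Tow.GQ, JJ.ev S q (g * u) f = JJ.ev S q g f := f.2.2

/-- constructor for elements of `𝕁_q` -/
def JJ.mk (q : Nat.Primes) (f : Tow.GQ → (unitsQpbar q).V)
    (h1 : ∀ (d : GQp q) (g : Tow.GQ), f (locQ q d * g) = (unitsQpbar q).ρ d (f g))
    (h2 : ∃ L : Level S, ∀ u ∈ L.U, ∀ g : Tow.GQ, f (g * u) = f g) : JJ S q := ⟨f, h1, h2⟩

@[simp] lemma JJ.ev_mk (q : Nat.Primes) (f) (h1) (h2) (g : Tow.GQ) :
    JJ.ev S q g (JJ.mk S q f h1 h2) = f g := rfl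

instance JJ.instDistribMulAction (q : Nat.Primes) : DistribMulAction Tow.GQ (JJ S q) where
  smul γ f := JJ.mk S q (fun g => JJ.ev S q (g * γ) f)
    (fun d g => by
      show JJ.ev S q (locQ q d * g * γ) f = _
      rw [mul_assoc, JJ.ev_mul_left])
    (by
      obtain ⟨L, hL⟩ := JJ.exists_level S q f
      refine ⟨L, fun u hu g => ?_⟩
      show JJ.ev S q (g * u * γ) f = JJ.ev S q (g * γ) f
      have h1 : g * u * γ = g * γ * (γ⁻¹ * u * γ) := by group
      rw [h1, hL _ (Level.conj_mem_U' S L hu γ)])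
  one_smul f := by
    apply JJ.ext
    intro g
    show JJ.ev S q (g * 1) f = _
    rw [mul_one]
  mul_smul γ γ' f := by
    apply JJ.ext
    intro g
    show JJ.ev S q (g * (γ * γ')) f = JJ.ev S q (g * γ * γ') f
    rw [mul_assoc]
  smul_zero γ := by
    apply JJ.ext
    intro g
    rfl
  smul_add γ f f' := by
    apply JJ.ext
    intro g
    rfl

@[simp] lemma JJ.ev_smul (q : Nat.Primes) (γ g : Tow.GQ) (f : JJ S q) :
    JJ.ev S q g (γ • f) = JJ.ev S q (g * γ) f := rfl

/-- `𝕁_q` is smooth for the tower -/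
lemma JJ.smooth (q : Nat.Primes) (f : JJ S q) : ∃ L : Level S, ∀ u ∈ L.U, u • f = f := by
  obtain ⟨L, hL⟩ := JJ.exists_level S q f
  exact ⟨L, fun u hu => JJ.ext S fun g => hL u hu g⟩

/-- `𝕁 = ∏_{q ∈ S} 𝕁_q` -/
def JJS : Type := (q : ↥S) → JJ S q.1

instance JJS.instAddCommGroup : AddCommGroup (JJS S) :=
  inferInstanceAs (AddCommGroup ((q : ↥S) → JJ S q.1))

instance JJS.instDistribMulAction : DistribMulAction Tow.GQ (JJS S) :=
  inferInstanceAs (DistribMulAction Tow.GQ ((q : ↥S) → JJ S q.1))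

/-- the `q`-component -/
def JJS.proj (q : ↥S) : JJS S →+ JJ S q.1 := Pi.evalAddMonoidHom _ q

lemma JJS.ext {x y : JJS S} (h : ∀ q, JJS.proj S q x = JJS.proj S q y) : x = y := funext h

@[simp] lemma JJS.proj_smul (q : ↥S) (γ : Tow.GQ) (x : JJS S) :
    JJS.proj S q (γ • x) = γ • JJS.proj S q x := rfl

/-- `𝕁` is smooth for the tower -/
lemma JJS.smooth (x : JJS S) : ∃ L : Level S, ∀ u ∈ L.U, u • x = x := by
  classical
  have key : ∀ T : Finset ↥S, ∃ L : Level S, ∀ q ∈ T, ∀ u ∈ L.U, u • JJS.proj S q x = JJS.proj S q x := by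
    intro T
    induction T using Finset.induction_on with
    | empty => exact ⟨capBot S, fun q hq => absurd hq (Finset.notMem_empty q)⟩
    | insert a T ha ih =>
      obtain ⟨L, hL⟩ := ih
      obtain ⟨L', hL'⟩ := JJ.smooth S a.1 (JJS.proj S a x)
      refine ⟨capSup S L L', fun q hq u hu => ?_⟩
      rcases Finset.mem_insert.1 hq with rfl | hq'
      · exact hL' u (Level.U_anti (le_capSup_right S L L') hu)
      · exact hL q hq' u (Level.U_anti (le_capSup_left S L L') hu)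
  obtain ⟨L, hL⟩ := key Finset.univ
  exact ⟨L, fun u hu => JJS.ext S fun q => hL q (Finset.mem_univ q) u hu⟩

/-! ### the diagonal embedding `𝔼 → 𝕁` -/

/-- the `q`-component of the diagonal embedding: `x ↦ (g ↦ emb_q (g x))` -/
def iEJq (q : Nat.Primes) : SU S →+ JJ S q where
  toFun x := JJ.mk S q (fun g => embQbar q (unitsQbar.ρ g (SU.val S x)))
    (fun d g => by
      rw [map_mul, Module.End.mul_apply, embQbar_equivariant])
    (by
      obtain ⟨L, hL⟩ := SU.exists_level S x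
      refine ⟨L, fun u hu g => ?_⟩
      rw [map_mul, Module.End.mul_apply, hL u hu])
  map_zero' := by
    apply JJ.ext
    intro g
    show embQbar q (unitsQbar.ρ g (SU.val S 0)) = 0
    rw [map_zero, map_zero, map_zero]
  map_add' x y := by
    apply JJ.ext
    intro g
    show embQbar q (unitsQbar.ρ g (SU.val S (x + y))) =
      embQbar q (unitsQbar.ρ g (SU.val S x)) + embQbar q (unitsQbar.ρ g (SU.val S y))
    rw [map_add, map_add, map_add]

@[simp] lemma ev_iEJq (q : Nat.Primes) (g : Tow.GQ) (x : SU S) :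
    JJ.ev S q g (iEJq S q x) = embQbar q (unitsQbar.ρ g (SU.val S x)) := rfl

lemma iEJq_smul (q : Nat.Primes) (γ : Tow.GQ) (x : SU S) : iEJq S q (γ • x) = γ • iEJq S q x := by
  apply JJ.ext
  intro g
  rw [JJ.ev_smul, ev_iEJq, ev_iEJq, SU.val_smul, map_mul, Module.End.mul_apply]

lemma embQbar_injective (q : Nat.Primes) : Function.Injective (embQbar q) := by
  intro x y h
  apply Additive.toMul.injective
  apply Units.ext
  have h' := congrArg (fun z : (unitsQpbar q).V =>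
    ((Additive.toMul z : (PadicAlgCl (q : ℕ))ˣ) : PadicAlgCl (q : ℕ))) h
  exact (padicEmbedding (q : ℕ)).toRingHom.injective h'

lemma iEJq_injective (q : Nat.Primes) : Function.Injective (iEJq S q) := by
  intro x y h
  apply SU.ext
  have h1 := congrArg (JJ.ev S q 1) h
  rw [ev_iEJq, ev_iEJq, map_one, Module.End.one_apply, Module.End.one_apply] at h1
  exact embQbar_injective q h1

/-- the diagonal embedding `𝔼 → 𝕁` -/
def iEJ : SU S →+ JJS S := AddMonoidHom.mk' (fun x q => iEJq S q.1 x) (fun x y => by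
  funext q
  exact map_add (iEJq S q.1) x y)

@[simp] lemma proj_iEJ (q : ↥S) (x : SU S) : JJS.proj S q (iEJ S x) = iEJq S q.1 x := rfl

lemma iEJ_smul (γ : Tow.GQ) (x : SU S) : iEJ S (γ • x) = γ • iEJ S x :=
  JJS.ext S fun q => iEJq_smul S q.1 γ x

lemma iEJ_injective (hS : S.Nonempty) : Function.Injective (iEJ S) := by
  obtain ⟨q, hq⟩ := hS
  intro x y h
  exact iEJq_injective S q (congrArg (JJS.proj S ⟨q, hq⟩) h)

end Fermat.Agent.S55.Cap
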