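import Fermat.Agent.S55.Cap.Mod
import Fermat.Agent.S55.PT.Spec

/-!
# S55 / layer K, input A8 (CAP): INTERFACE   (sub-architect helper303)

Blueprint: `coord/S55-K-A8.md` (branch `origin/helper303`).  Spec pattern: every statement is a
`def … : Prop`; producers prove `theorem foo : FooSpec …` in a NEW file
`Fermat/Agent/S55/Cap/<Leaf>H<seat>.lean`; the consumer is `Cap/Main.lean`
(`capSpec_of_leaves`, PROVED).

Objects (`Cap/Mod.lean`, `Cap/IndM.lean`):  `𝔼 = SU S` (smooth `S`-units), `𝕁 = JJS S`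
(smooth `S`-idèles `∏_{q ∈ S} Coind^{sm} ℚ̄_qˣ`), `i = iEJ S : 𝔼 → 𝕁` (diagonal),
`Ind_U X = IndM U X = (G_ℚ ⧸ U →₀ X)` with the diagonal action, `IndM.map`, `IndM.le`.
The idèle class module does NOT appear in the leaves: `𝕁/𝔼` is its `p`-local stand-in.

Leaves:

| leaf | statement | classical content | input |
|---|---|---|---|
| `MuSpec`    | `μ_p ↪ 𝔼` equivariant, image `= 𝔼[p]` | roots of unity | Bridge/MuP, H654 |
| `HasMuSpec` | `μ` trivial on `U_L` ⇒ `μ_p ⊂ L.F` | Galois correspondence | Mathlib |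
| `EDivSpec`  | `𝔼` is `p`-divisible | Kummer, `p ∈ S` | `Tow.SUnitsDivSpec` (on main) |
| `J1Spec`    | `H¹(G_S, Ind_U 𝕁) = 0` (cochains) | Hilbert 90 + Shapiro | `Tow.LocalSpec` |
| `J2Spec`    | `Ш²`-classes die in `H²(G_S, Ind_U 𝕁)` (cochains) | H90 ⇒ inflation injective, Shapiro | `Tow.LocalSpec` |
| `C1Spec`    | `H¹(G_S, Ind_U (𝕁/𝔼))` has no `p`-part (cochains) | `H¹(C) = 0` + capitulation | GD1, GD4, GD5, GD7, GD11 |
| `C2Spec`    | `∀ V ∃ U`: `N_{U→V} (𝕁/𝔼)^U ⊆ p (𝕁/𝔼)^V` up to prime-to-`p` | existence theorem mod `p` | GD4–GD7, GD11, GD12 |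
-/

set_option autoImplicit false

noncomputable section

namespace Fermat.Agent.S55.Cap

open Fermat.Agent.S55.PT Fermat.Agent.S55.Tow groupCohomology ExtCitation

variable (p : ℕ) [Fact p.Prime] (S : Finset Nat.Primes)

/-! ## additions to the tower datum (tell helper55 / helper955) -/

/-- **GD11**: `C(F)/im J(F)` (the `S`-class group) is torsion. -/
def ClTorsion {S : Finset Nat.Primes} (D : TowerDatum S) : Prop :=
  ∀ (L : Level S) (c : (D.C L).V), ∃ n : ℕ, 0 < n ∧ D.IsLocalSum L (n • c)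

/-- **GD12**: Galois descent in the tower: an element of `C(F')` fixed by `Gal(F'/F)` comes from
`C(F)` (after passing to a higher level). -/
def Descent {S : Finset Nat.Primes} (D : TowerDatum S) : Prop :=
  ∀ {L L' : Level S} (h : L ≤ L') (c : (D.C L').V),
    (∀ σ ∈ Level.relGal h, (D.C L').ρ σ c = c) →
    ∃ (L'' : Level S) (h' : L' ≤ L'') (c₁ : (D.C L).V),
      (D.tr h').hom c = (D.tr (h.trans h')).hom c₁

/-- the input of layer G consumed by A8: a good tower datum with GD11 and GD12 -/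
def GlobalSpecCap : Prop :=
  ∃ D : TowerDatum S, D.IsGoodMu p ∧ ClTorsion D ∧ Descent D

/-! ## the leaves -/

/-- **MU.**  An equivariant embedding `μ_p → 𝔼` whose image is the `p`-torsion of `𝔼`. -/
def MuSpec : Prop :=
  ∃ ι₀ : ↥(mu p) →+ SU S, Function.Injective ι₀ ∧
    (∀ (g : Tow.GQ) (a : ↥(mu p)), ι₀ ((mu p).ρ g a) = g • ι₀ a) ∧
    (∀ e : SU S, p • e = 0 → ∃ a, ι₀ a = e)

/-- **HASMU.**  If `U_L` acts trivially on `μ = ofChar (cycloChar p)` then `μ_p ⊂ L.F`. -/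
def HasMuSpec : Prop :=
  ∀ L : Level S, (∀ s ∈ L.U, (mu p).ρ s = 1) → L.HasMu p

/-- **EDIV.**  `𝔼` is `p`-divisible. -/
def EDivSpec : Prop := ∀ x : SU S, ∃ y : SU S, p • y = x

/-- **J1.**  Level-constant 1-cocycles `G_ℚ → Ind_U 𝕁` are coboundaries
(`H¹(G_S(K_U), 𝕁) = ⊕_w H¹(Gal(Ω_w/K_{U,w}), Ω_wˣ) = 0`). -/
def J1Spec : Prop :=
  ∀ (L₁ : Level S) (f : Tow.GQ → IndM L₁.U (JJS S)), (globalLevels S).IsLC₁ f →
    (∀ g h, f (g * h) = f g + g • f h) → ∃ q : IndM L₁.U (JJS S), ∀ g, f g = g • q - q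

/-- **J2.**  A level-constant 2-cocycle with values in `Ind_U μ` whose class is locally trivial at
all `v ∈ S` becomes the coboundary of a level-constant 1-cochain in `Ind_U 𝕁`. -/
def J2Spec : Prop :=
  ∀ (ι₀ : ↥(mu p) →+ SU S), (∀ (g : Tow.GQ) (a : ↥(mu p)), ι₀ ((mu p).ρ g a) = g • ι₀ a) →
    ∀ (L₁ : Level S), (∀ s ∈ L₁.U, (mu p).ρ s = 1) →
    ∀ c : ↥((globalLevels S).Z2 (indRep L₁.U (mu p))),
      (globalLevels S).H2π (indRep L₁.U (mu p)) c ∈ Sha2 (hrl S) (indRep L₁.U (mu p)) →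
      ∃ b : Tow.GQ → IndM L₁.U (JJS S), (globalLevels S).IsLC₁ b ∧
        ∀ g h, IndM.map L₁.U (iEJ S) (IndM.map L₁.U ι₀
            (IndM.ofF L₁.U ((c : Tow.GQ × Tow.GQ → (Tow.GQ ⧸ L₁.U) →₀ ↥(mu p)) (g, h))))
          = g • b h - b (g * h) + b g

/-- **C1.**  `H¹(G_S(K_U), 𝕁/𝔼)` has no `p`-part, in cochain form: a level-constant 1-cochain `b`
in `Ind_U 𝕁` whose coboundary has values in `Ind_U 𝔼` is, up to a prime-to-`p` multiple and
modulo `Ind_U 𝔼`, a coboundary. -/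
def C1Spec : Prop :=
  ∀ (L₁ : Level S) (b : Tow.GQ → IndM L₁.U (JJS S)), (globalLevels S).IsLC₁ b →
    (∀ g h, ∃ e : IndM L₁.U (SU S), IndM.map L₁.U (iEJ S) e = g • b h - b (g * h) + b g) →
    ∃ (m : ℕ) (q₁ : IndM L₁.U (JJS S)), m.Coprime p ∧
      ∀ g, ∃ e : IndM L₁.U (SU S), IndM.map L₁.U (iEJ S) e = m • b g - (g • q₁ - q₁)

/-- **C2.**  Existence theorem mod `p`: for every level `L₀ ⊇ μ_p` there is a level `L₁ ≥ L₀` such
that the norm `Ind_{U₁} → Ind_{U₀}` maps `(𝕁/𝔼)`-invariants into `p · (𝕁/𝔼)`-invariants, up to a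
prime-to-`p` factor. -/
def C2Spec : Prop :=
  ∀ (L₀ : Level S), L₀.HasMu p → ∃ (L₁ : Level S) (h : L₀ ≤ L₁),
    ∀ q : IndM L₁.U (JJS S),
      (∀ g : Tow.GQ, ∃ e : IndM L₁.U (SU S), IndM.map L₁.U (iEJ S) e = g • q - q) →
      ∃ (n : ℕ) (q₂ : IndM L₀.U (JJS S)), n.Coprime p ∧
        (∀ g : Tow.GQ, ∃ e : IndM L₀.U (SU S), IndM.map L₀.U (iEJ S) e = g • q₂ - q₂) ∧
        ∃ ε : IndM L₀.U (SU S),
          IndM.map L₀.U (iEJ S) ε = n • IndM.le (Level.U_anti h) q - p • q₂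

/-! ## the adapters (= the work of the leaves `J1`, `J2`, `C1`, `C2`) -/

/-- leaf **J1** -/
def J1AdapterSpec : Prop := LocalSpec p → J1Spec S

/-- leaf **J2** -/
def J2AdapterSpec : Prop := LocalSpec p → J2Spec p S

/-- leaf **C1** -/
def C1AdapterSpec : Prop :=
  (∃ D : TowerDatum S, D.IsGoodMu p ∧ ClTorsion D) → SUnitsDivSpec S p → C1Spec p S

/-- leaf **C2** -/
def C2AdapterSpec : Prop := GlobalSpecCap p S → C2Spec p S

/-- leaf **EDIV** -/
def EDivAdapterSpec : Prop := SUnitsDivSpec S p → EDivSpec p S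

end Fermat.Agent.S55.Cap
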